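/-
S25 package ATLAS/DIV, leaf Spread: staged calculus for spreading out.
Copied (namespace renamed, trimmed to the (SPREAD) part) from helper7765's
`ATLAS/DIV/H7765/Staged.lean`; `IsSpread.trans` added (helper8990).

`IsSpread 𝒜 𝒬`: if one geometric fibre of a module with `𝒜` satisfies `𝒬`, then every base
change inverting some `a` (nonzero at the point) satisfies `𝒬`.
`IsSpread.trans`: stage `𝒬` only has to be spread among modules satisfying the previous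
stage `𝒬₀` (when `𝒬 → 𝒬₀`); no base-change stability of `𝒬₀` is needed.
-/
import Fermat.Agent.S25.ATLAS.Defs
import Fermat.Agent.S25.ATLAS.RIG
import Fermat.Agent.S25.BC

set_option autoImplicit false

universe u

namespace Fermat.Agent.S25.ATLAS.DIV.Spread

open Fermat.Agent.S25 GluedModule

variable {k : Type u} [Field k]

/-- A property of glued modules over all `k`-algebras (e.g. a chart condition). -/
abbrev Fam (𝒞 : CurveData k) : Type (u + 1) :=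
  ∀ (R : Type u) [CommRing R] [Algebra k R], GluedModule (𝒞.chart R) → Prop

variable {𝒞 : CurveData k}

/-- Conjunction of two properties. -/
def Fam.and (𝒬 𝒬' : Fam 𝒞) : Fam 𝒞 :=
  fun R [CommRing R] [Algebra k R] M => 𝒬 R M ∧ 𝒬' R M

/-- The ambient property: rigid line bundles. -/
def RigLB (𝒞 : CurveData k) : Fam 𝒞 :=
  fun R [CommRing R] [Algebra k R] M => M.IsLineBundle ∧ Rigid 𝒞 M

/-- Stability under base change (relation `IsBC`). -/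
def IsBCStable (𝒬 : Fam 𝒞) : Prop :=
  ∀ {R R' : Type u} [CommRing R] [Algebra k R] [CommRing R'] [Algebra k R'] (φ : R →ₐ[k] R')
    (M : GluedModule (𝒞.chart R)) (M' : GluedModule (𝒞.chart R')),
    𝒬 R M → IsBC (𝒞.chartHom φ) M M' → 𝒬 R' M'

/-- (SPREAD) relative to an ambient property `𝒜`: if one geometric fibre of a module with `𝒜`
satisfies `𝒬`, then every base change inverting some `a` (nonzero at the point) satisfies
`𝒬`. -/
def IsSpread (𝒜 𝒬 : Fam 𝒞) : Prop :=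
  ∀ {R : Type u} [CommRing R] [Algebra k R] (M : GluedModule (𝒞.chart R)), 𝒜 R M →
    ∀ (κ : Type u) [Field κ] [IsAlgClosed κ] [Algebra k κ] (φ₀ : R →ₐ[k] κ)
      (M₀ : GluedModule (𝒞.chart κ)), IsBC (𝒞.chartHom φ₀) M M₀ → 𝒬 κ M₀ →
    ∃ a : R, φ₀ a ≠ 0 ∧ ∀ (R' : Type u) [CommRing R'] [Algebra k R'] (φ : R →ₐ[k] R')
      (M' : GluedModule (𝒞.chart R')), IsUnit (φ a) → IsBC (𝒞.chartHom φ) M M' → 𝒬 R' M'

/-- If `M₁` is the base change of `M` along `ℓ` and `M'` is the base change of `M` along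
`φ' ∘ ℓ`, then `M'` is the base change of `M₁` along `φ'`. -/
theorem isBC_of_factor {R R₁ R' : Type u} [CommRing R] [Algebra k R] [CommRing R₁]
    [Algebra k R₁] [CommRing R'] [Algebra k R'] (ℓ : R →ₐ[k] R₁) (φ' : R₁ →ₐ[k] R')
    (φ : R →ₐ[k] R') (hφ : φ'.comp ℓ = φ) (M : GluedModule (𝒞.chart R))
    (M₁ : GluedModule (𝒞.chart R₁)) (M' : GluedModule (𝒞.chart R'))
    (h₁ : IsBC (𝒞.chartHom ℓ) M M₁) (h : IsBC (𝒞.chartHom φ) M M') :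
    IsBC (𝒞.chartHom φ') M₁ M' := by
  obtain ⟨M'', h''⟩ := exists_isBC 𝒞 φ' M₁
  have hc := isBC_comp 𝒞 ℓ φ' M M₁ M'' h₁ h''
  rw [hφ] at hc
  have e := isBC_unique 𝒞 φ M M'' M' hc h
  exact isBC_of_iso 𝒞 φ' M₁ M₁ M'' M' h'' ⟨Iso.refl M₁⟩ e

/-- Rigid line bundles are stable under base change. -/
theorem isBCStable_rigLB : IsBCStable (RigLB 𝒞) :=
  fun φ M M' hM hBC =>
    ⟨isLineBundle_of_isBC 𝒞 φ M M' hM.1 hBC, rigid_of_isBC 𝒞 φ M M' hM.2 hBC⟩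

/-- **Staged openness.**  If `𝒬₁` spreads, and `𝒬₂` spreads among the modules which already
satisfy `𝒬₁`, then `𝒬₁ ∧ 𝒬₂` spreads.  (Localise at the element given by the first stage,
apply the second stage over `R[1/a₁]`, clear the denominator.) -/
theorem IsSpread.and {𝒜 𝒬₁ 𝒬₂ : Fam 𝒞} (hA : IsBCStable 𝒜) (h₁ : IsSpread 𝒜 𝒬₁)
    (h₂ : IsSpread (Fam.and 𝒜 𝒬₁) 𝒬₂) : IsSpread 𝒜 (Fam.and 𝒬₁ 𝒬₂) := by
  intro R _ _ M hM κ _ _ _ φ₀ M₀ hBC₀ hP₀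
  obtain ⟨a₁, ha₁, H₁⟩ := h₁ M hM κ φ₀ M₀ hBC₀ hP₀.1
  -- localise at `a₁`
  let ℓ : R →ₐ[k] Localization.Away a₁ := IsScalarTower.toAlgHom k R (Localization.Away a₁)
  have hℓ : ∀ x, ℓ x = algebraMap R (Localization.Away a₁) x := fun x => rfl
  obtain ⟨M₁, hM₁⟩ := exists_isBC 𝒞 ℓ M
  have hu₁ : IsUnit (ℓ a₁) := IsLocalization.Away.algebraMap_isUnit a₁
  have hA₁ : 𝒜 (Localization.Away a₁) M₁ := hA ℓ M M₁ hM hM₁
  have hP₁ : 𝒬₁ (Localization.Away a₁) M₁ := H₁ (Localization.Away a₁) ℓ M₁ hu₁ hM₁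
  -- the point factors through the localisation
  have hφ₀u : ∀ y : Submonoid.powers a₁, IsUnit (φ₀ y) := by
    rintro ⟨_, n, rfl⟩
    rw [map_pow]
    exact (IsUnit.mk0 _ ha₁).pow n
  let φ₀' : Localization.Away a₁ →ₐ[k] κ :=
    IsLocalization.liftAlgHom (M := Submonoid.powers a₁) (f := φ₀) hφ₀u
  have hφ₀'ℓ : ∀ x, φ₀' (ℓ x) = φ₀ x := fun x => by
    rw [hℓ, IsLocalization.liftAlgHom_apply]
    exact IsLocalization.lift_eq _ x
  have hφ₀' : φ₀'.comp ℓ = φ₀ := AlgHom.ext hφ₀'ℓ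
  have hBC₀' : IsBC (𝒞.chartHom φ₀') M₁ M₀ :=
    isBC_of_factor ℓ φ₀' φ₀ hφ₀' M M₁ M₀ hM₁ hBC₀
  obtain ⟨a₂, ha₂, H₂⟩ := h₂ M₁ ⟨hA₁, hP₁⟩ κ φ₀' M₀ hBC₀' hP₀.2
  obtain ⟨n, c, hc⟩ := IsLocalization.Away.surj a₁ a₂
  have hc' : a₂ * ℓ a₁ ^ n = ℓ c := hc
  refine ⟨a₁ * c, ?_, ?_⟩
  · rw [map_mul]
    refine mul_ne_zero ha₁ ?_
    have h := congrArg φ₀' hc'
    rw [map_mul, map_pow, hφ₀'ℓ, hφ₀'ℓ] at h
    rw [← h]
    exact mul_ne_zero ha₂ (pow_ne_zero _ ha₁)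
  · intro R' _ _ φ M' hu hBC
    rw [map_mul] at hu
    have hu₁' : IsUnit (φ a₁) := isUnit_of_mul_isUnit_left hu
    have huc : IsUnit (φ c) := isUnit_of_mul_isUnit_right hu
    have hφu : ∀ y : Submonoid.powers a₁, IsUnit (φ y) := by
      rintro ⟨_, n, rfl⟩
      rw [map_pow]
      exact hu₁'.pow n
    let φ' : Localization.Away a₁ →ₐ[k] R' :=
      IsLocalization.liftAlgHom (M := Submonoid.powers a₁) (f := φ) hφu
    have hφ'ℓ : ∀ x, φ' (ℓ x) = φ x := fun x => by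
      rw [hℓ, IsLocalization.liftAlgHom_apply]
      exact IsLocalization.lift_eq _ x
    have hφ' : φ'.comp ℓ = φ := AlgHom.ext hφ'ℓ
    have hBC' : IsBC (𝒞.chartHom φ') M₁ M' := isBC_of_factor ℓ φ' φ hφ' M M₁ M' hM₁ hBC
    have hu₂ : IsUnit (φ' a₂) := by
      have h := congrArg φ' hc'
      rw [map_mul, map_pow, hφ'ℓ, hφ'ℓ] at h
      rw [← h] at huc
      exact isUnit_of_mul_isUnit_left huc
    exact ⟨H₁ R' φ M' hu₁' hBC, H₂ R' φ' M' hu₂ hBC'⟩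

/-- **Staging, cumulative form.**  If `𝒬₀` spreads, `𝒬` spreads among the modules satisfying
`𝒬₀`, and `𝒬` implies `𝒬₀`, then `𝒬` spreads. -/
theorem IsSpread.trans {𝒜 𝒬₀ 𝒬 : Fam 𝒞} (hA : IsBCStable 𝒜) (h₁ : IsSpread 𝒜 𝒬₀)
    (h₂ : IsSpread (Fam.and 𝒜 𝒬₀) 𝒬)
    (hQP : ∀ (R : Type u) [CommRing R] [Algebra k R] (M : GluedModule (𝒞.chart R)),
      𝒬 R M → 𝒬₀ R M) : IsSpread 𝒜 𝒬 := by
  intro R _ _ M hM κ _ _ _ φ₀ M₀ hBC₀ hP₀
  obtain ⟨a, ha, H⟩ := IsSpread.and hA h₁ h₂ M hM κ φ₀ M₀ hBC₀ ⟨hQP κ M₀ hP₀, hP₀⟩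
  exact ⟨a, ha, fun R' _ _ φ M' hu hBC => (H R' φ M' hu hBC).2⟩

end Fermat.Agent.S25.ATLAS.DIV.Spread
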