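/-
S25 package ATLAS/DIV, leaf Spread: the stages (helper8990, deputy of the leaf).
Definitions only; no sorry.

Cumulative stage properties of a glued module `M` over `𝒞.chart R`:
* `PH1`     : `H¹(M) = 0`;
* `PC1`     : `∃ s, IsC1 M s`   (`IsC1` = `IsCan` without the field `away`);
* `PCan`    : `∃ s, IsCan M s`;
* `PDiv b 1`: `∃ s, InDivChart b 1 M s`  (= `IsCan` + `free`; the `unit` field is trivial);
* `PDiv b h`: `∃ s, InDivChart b h M s`.
Each implies the previous one.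
-/
import Fermat.Agent.S25.ATLAS.DIV.Defs
import Fermat.Agent.S25.ATLAS.DIV.Spread.Staged

set_option autoImplicit false

universe u

namespace Fermat.Agent.S25.ATLAS.DIV.Spread

open scoped TensorProduct

open Fermat.Agent.S25 Fermat.Agent.S25.ATLAS GluedModule H2890 HC2928

variable {k : Type u} [Field k] (𝒞 : CurveData k)

/-- Condition C1 on a pair `(M, s)`: the fields of `IsCan` except `away`. -/
structure IsC1 {R : Type u} [CommRing R] [Algebra k R] (M : GluedModule (𝒞.chart R))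
    (s : M.N₁ × M.N₂) : Prop where
  mem : s ∈ M.H0
  h1 : Subsingleton M.H1
  gen : ∀ t : M.N₁ × M.N₂, t ∈ M.H0 → ∃! r : R, t = r • s
  eps : Submodule.span (𝒞.chart R).B₁ {s.1} ⊔
      (RingHom.ker (𝒞.epsR R : (𝒞.chart R).B₁ →+* R)) • (⊤ : Submodule (𝒞.chart R).B₁ M.N₁) = ⊤

variable {𝒞} in
theorem IsC1.of_isCan {R : Type u} [CommRing R] [Algebra k R] {M : GluedModule (𝒞.chart R)}
    {s : M.N₁ × M.N₂} (h : IsCan 𝒞 M s) : IsC1 𝒞 M s :=
  ⟨h.mem, h.h1, h.gen, h.eps⟩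

variable {𝒞} in
theorem IsC1.isCan {R : Type u} [CommRing R] [Algebra k R] {M : GluedModule (𝒞.chart R)}
    {s : M.N₁ × M.N₂} (h : IsC1 𝒞 M s)
    (away : Submodule.span (𝒞.chart R).B₂ {s.2} ⊔
      (Ideal.span {(𝒞.chart R).g}) • (⊤ : Submodule (𝒞.chart R).B₂ M.N₂) = ⊤) : IsCan 𝒞 M s :=
  ⟨h.mem, h.h1, h.gen, h.eps, away⟩

/-- Stage 1: `H¹ = 0`. -/
def PH1 : Fam 𝒞 := fun R [CommRing R] [Algebra k R] M => Subsingleton M.H1

/-- Stage 2: there is a section with C1. -/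
def PC1 : Fam 𝒞 := fun R [CommRing R] [Algebra k R] M => ∃ s : M.N₁ × M.N₂, IsC1 𝒞 M s

/-- Stage 3: there is a canonical section (C1 + C2). -/
def PCan : Fam 𝒞 := fun R [CommRing R] [Algebra k R] M => ∃ s : M.N₁ × M.N₂, IsCan 𝒞 M s

/-- Stages 4 (`h = 1`) and 5: `M` lies in the divisor chart `(b, h)`. -/
def PDiv {g : ℕ} (b : Fin g → 𝒞.A₁) (h : HilbChart k 𝒞.A₁ b) : Fam 𝒞 :=
  fun R [CommRing R] [Algebra k R] M => ∃ s : M.N₁ × M.N₂, InDivChart 𝒞 b h M s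

variable {𝒞}

theorem PH1.of_pC1 (R : Type u) [CommRing R] [Algebra k R] (M : GluedModule (𝒞.chart R))
    (h : PC1 𝒞 R M) : PH1 𝒞 R M := by
  obtain ⟨s, hs⟩ := h
  exact hs.h1

theorem PC1.of_pCan (R : Type u) [CommRing R] [Algebra k R] (M : GluedModule (𝒞.chart R))
    (h : PCan 𝒞 R M) : PC1 𝒞 R M := by
  obtain ⟨s, hs⟩ := h
  exact ⟨s, IsC1.of_isCan hs⟩

theorem PCan.of_pDiv {g : ℕ} (b : Fin g → 𝒞.A₁) (h : HilbChart k 𝒞.A₁ b)
    (R : Type u) [CommRing R] [Algebra k R] (M : GluedModule (𝒞.chart R))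
    (hM : PDiv 𝒞 b h R M) : PCan 𝒞 R M := by
  obtain ⟨s, hs⟩ := hM
  exact ⟨s, hs.can⟩

/-- The chart `(b, 1)` is the chart `(b, h)` without the condition `unit`. -/
theorem inDivChart_one {g : ℕ} {b : Fin g → 𝒞.A₁} {R : Type u} [CommRing R] [Algebra k R]
    {M : GluedModule (𝒞.chart R)} {s : M.N₁ × M.N₂} (can : IsCan 𝒞 M s)
    (free : IsFreeOn b (zeroIdeal₁ 𝒞 M s)) : InDivChart 𝒞 b 1 M s :=
  ⟨can, free, by rw [map_one]; exact isUnit_one⟩

theorem PDiv.one_of_pDiv {g : ℕ} (b : Fin g → 𝒞.A₁) (h : HilbChart k 𝒞.A₁ b)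
    (R : Type u) [CommRing R] [Algebra k R] (M : GluedModule (𝒞.chart R))
    (hM : PDiv 𝒞 b h R M) : PDiv 𝒞 b 1 R M := by
  obtain ⟨s, hs⟩ := hM
  exact ⟨s, inDivChart_one hs.can hs.free⟩

end Fermat.Agent.S25.ATLAS.DIV.Spread
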