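/-
S25 package ATLAS/DIV, leaf Spread, stage 1 (sub-leaf; statement fixed by `Spread/Plan.lean`).
DONE (helper8990), no sorry.
`H¹ = 0` spreads: the vanishing locus of `H¹(M)` is open ((F), `Lib/Coh/Rel6070`) and its
formation commutes with base change ((CB2)); take a basic open neighbourhood of the point.
-/
import Fermat.Agent.S25.ATLAS.DIV.Spread.Defs
import Fermat.Agent.S25.Lib.Coh.Rel6070

set_option autoImplicit false

universe u

namespace Fermat.Agent.S25.ATLAS.DIV.Spread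

open scoped TensorProduct

open Fermat.Agent.S25 Fermat.Agent.S25.ATLAS GluedModule H2890 HC2928

variable {k : Type u} [Field k] (𝒞 : CurveData k) [IsAlgClosed k]

theorem spread_h1 : IsSpread (RigLB 𝒞) (PH1 𝒞) := by
  intro R _ _ M hM κ _ _ _ φ₀ M₀ hBC₀ hP₀
  obtain ⟨hLB, -⟩ := hM
  have hopen := Lib.Coh.isOpen_h1Locus_chart 𝒞 M hLB
  have hmem := (Lib.Coh.subsingleton_h1_iff_of_isBC_field 𝒞 φ₀ hLB hBC₀).1 hP₀
  obtain ⟨_, ⟨a, rfl⟩, ha, hsub⟩ :=
    PrimeSpectrum.isTopologicalBasis_basic_opens.exists_subset_of_mem_open hmem hopen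
  refine ⟨a, ?_, ?_⟩
  · intro h0
    exact ha ((RingHom.mem_ker).2 h0)
  · intro R' _ _ φ M' hu hBC
    change Subsingleton M'.H1
    rw [Lib.Coh.subsingleton_h1_iff_forall_of_isBC 𝒞 φ hLB hBC]
    intro q
    apply hsub
    change a ∉ (PrimeSpectrum.comap (φ : R →+* R') q).asIdeal
    rw [PrimeSpectrum.comap_asIdeal, Ideal.mem_comap]
    exact fun h => q.isPrime.ne_top (Ideal.eq_top_of_isUnit_mem _ h hu)

end Fermat.Agent.S25.ATLAS.DIV.Spread
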