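import Mathlib

/-!
# S25 library (helper9288): support of a finite module under base change

Mathlib-only, general commutative algebra used for the "(Open)/pointwise" arguments of the S25
route (conditions that are open on `Spec R` and can be tested on fibres):

* `nontrivial_field_tensor_iff`: for a finite `R`-module `M` and a field `L` over `R` with kernel
  `p`, `L ⊗[R] M ≠ 0` iff `p ∈ Supp M`.
* `support_baseChange`: `Supp_A (A ⊗[R] M) = (Spec A → Spec R)⁻¹ (Supp_R M)` for `M` finite.
* `subsingleton_baseChange_iff`: `A ⊗[R] M = 0` iff the image of `Spec A` misses `Supp M`.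
* `genLocus`, `isOpen_genLocus`, `span_baseChange_eq_top_iff`: the locus where a family of elements
  generates a finite module is open, and generation after base change `R → A` is equivalent to
  `Spec A` landing in that locus.
-/

set_option autoImplicit false

open TensorProduct

namespace Fermat.Agent.S25.ATLAS.DIV.Spread

variable {R : Type*} [CommRing R] {M : Type*} [AddCommGroup M] [Module R M]

/-- For a finite module `M` and a field `L` over `R` whose structure map has kernel the prime `p`,
`L ⊗[R] M` is nonzero iff `p` is in the support of `M`. -/
theorem nontrivial_field_tensor_iff [Module.Finite R M] (L : Type*) [Field L] [Algebra R L]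
    (p : PrimeSpectrum R) (hp : RingHom.ker (algebraMap R L) = p.asIdeal) :
    Nontrivial (L ⊗[R] M) ↔ p ∈ Module.support R M := by
  have hf₁ : p.asIdeal ≤ RingHom.ker (algebraMap R L) := by rw [hp]
  have hf₂ : p.asIdeal.primeCompl ≤ (IsUnit.submonoid L).comap (algebraMap R L) := by
    intro x hx
    simp only [Submonoid.mem_comap, IsUnit.mem_submonoid_iff, isUnit_iff_ne_zero]
    intro h0
    have : x ∈ RingHom.ker (algebraMap R L) := h0
    rw [hp] at this
    exact hx this
  let φ : p.asIdeal.ResidueField →+* L :=
    Ideal.ResidueField.lift p.asIdeal (algebraMap R L) hf₁ hf₂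
  let _ : Algebra p.asIdeal.ResidueField L := φ.toAlgebra
  have : IsScalarTower R p.asIdeal.ResidueField L := IsScalarTower.of_algebraMap_eq' (by
    refine RingHom.ext fun r => ?_
    exact (Ideal.ResidueField.lift_algebraMap p.asIdeal (algebraMap R L) hf₁ hf₂ r).symm)
  rw [Module.mem_support_iff_nontrivial_residueField_tensorProduct]
  let e := AlgebraTensorModule.cancelBaseChange R p.asIdeal.ResidueField L L M
  rw [← e.nontrivial_congr]
  exact Module.FaithfullyFlat.nontrivial_tensorProduct_iff_right _ _

/-- The support of a finite module commutes with base change. -/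
theorem support_baseChange [Module.Finite R M] (A : Type*) [CommRing A] [Algebra R A] :
    Module.support A (A ⊗[R] M) =
      PrimeSpectrum.comap (algebraMap R A) ⁻¹' Module.support R M := by
  ext q
  rw [Module.mem_support_iff_nontrivial_residueField_tensorProduct]
  let e := AlgebraTensorModule.cancelBaseChange R A q.asIdeal.ResidueField
    q.asIdeal.ResidueField M
  rw [e.nontrivial_congr, Set.mem_preimage]
  refine nontrivial_field_tensor_iff _ (PrimeSpectrum.comap (algebraMap R A) q) ?_
  rw [IsScalarTower.algebraMap_eq R A q.asIdeal.ResidueField, ← RingHom.comap_ker,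
    Ideal.ker_algebraMap_residueField]
  rfl

/-- A finite module vanishes after base change iff the image of the spectrum misses its support. -/
theorem subsingleton_baseChange_iff [Module.Finite R M] (A : Type*) [CommRing A] [Algebra R A] :
    Subsingleton (A ⊗[R] M) ↔
      Disjoint (Set.range (PrimeSpectrum.comap (algebraMap R A))) (Module.support R M) := by
  rw [← Module.support_eq_empty_iff (R := A), support_baseChange, Set.disjoint_right]
  constructor
  · rintro h p hp ⟨q, rfl⟩
    have : q ∈ PrimeSpectrum.comap (algebraMap R A) ⁻¹' Module.support R M := hp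
    rw [h] at this
    exact this
  · intro h
    ext q
    simp only [Set.mem_preimage, Set.mem_empty_iff_false, iff_false]
    exact fun hq => h hq ⟨q, rfl⟩

/-- Version with the complement of the support. -/
theorem subsingleton_baseChange_iff' [Module.Finite R M] (A : Type*) [CommRing A] [Algebra R A] :
    Subsingleton (A ⊗[R] M) ↔
      Set.range (PrimeSpectrum.comap (algebraMap R A)) ⊆ (Module.support R M)ᶜ := by
  rw [subsingleton_baseChange_iff, Set.subset_compl_iff_disjoint_right]

section genLocus

variable {ι : Type*}

/-- The locus of primes at which the family `s` generates `M`. -/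
def genLocus (s : ι → M) : Set (PrimeSpectrum R) :=
  (Module.support R (M ⧸ Submodule.span R (Set.range s)))ᶜ

theorem isOpen_genLocus [Module.Finite R M] (s : ι → M) :
    IsOpen (genLocus (R := R) s) :=
  (Module.isClosed_support (R := R)
    (M := M ⧸ Submodule.span R (Set.range s))).isOpen_compl

/-- A submodule base-changes to the whole module iff the base change of the quotient vanishes. -/
theorem baseChange_eq_top_iff (A : Type*) [CommRing A] [Algebra R A] (p : Submodule R M) :
    p.baseChange A = ⊤ ↔ Subsingleton (A ⊗[R] (M ⧸ p)) := by
  have hex : Function.Exact (p.subtype.baseChange A) (p.mkQ.baseChange A) := by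
    have := lTensor_exact A (LinearMap.exact_subtype_mkQ p) (Submodule.mkQ_surjective p)
    exact this
  have hsurj : Function.Surjective (p.mkQ.baseChange A) :=
    LinearMap.lTensor_surjective A (Submodule.mkQ_surjective p)
  constructor
  · intro h
    refine ⟨fun x y => ?_⟩
    obtain ⟨x', rfl⟩ := hsurj x
    obtain ⟨y', rfl⟩ := hsurj y
    have hx : x' ∈ LinearMap.range (p.subtype.baseChange A) := by
      change x' ∈ p.baseChange A
      rw [h]; trivial
    have hy : y' ∈ LinearMap.range (p.subtype.baseChange A) := by
      change y' ∈ p.baseChange A
      rw [h]; trivial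
    rw [(hex x').mpr hx, (hex y').mpr hy]
  · intro h
    rw [eq_top_iff]
    intro x _
    have : p.mkQ.baseChange A x = 0 := Subsingleton.elim _ _
    exact (hex x).mp this

/-- Generation after base change is equivalent to landing in the (open) generation locus. -/
theorem span_baseChange_eq_top_iff [Module.Finite R M] (A : Type*) [CommRing A] [Algebra R A]
    (s : ι → M) :
    Submodule.span A (Set.range fun i => (1 : A) ⊗ₜ[R] s i) = ⊤ ↔
      Set.range (PrimeSpectrum.comap (algebraMap R A)) ⊆ genLocus (R := R) s := by
  unfold genLocus
  rw [← subsingleton_baseChange_iff', ← baseChange_eq_top_iff, Submodule.baseChange_span,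
    ← Set.range_comp]
  rfl

/-- Pointwise criterion: the family generates `M` iff every prime is in the generation locus. -/
theorem span_eq_top_iff_genLocus [Module.Finite R M] (s : ι → M) :
    Submodule.span R (Set.range s) = ⊤ ↔ genLocus (R := R) s = Set.univ := by
  unfold genLocus
  rw [Set.compl_univ_iff, Module.support_eq_empty_iff, Submodule.Quotient.subsingleton_iff]

/-- A prime is in the generation locus iff the family generates the fibre at that prime. -/
theorem mem_genLocus_iff [Module.Finite R M] (s : ι → M) (p : PrimeSpectrum R) :
    p ∈ genLocus (R := R) s ↔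
      Submodule.span p.asIdeal.ResidueField
        (Set.range fun i => (1 : p.asIdeal.ResidueField) ⊗ₜ[R] s i) = ⊤ := by
  rw [span_baseChange_eq_top_iff]
  constructor
  · intro hp
    rintro _ ⟨q, rfl⟩
    have hq : PrimeSpectrum.comap (algebraMap R p.asIdeal.ResidueField) q = p := by
      ext1
      have hbot : q.asIdeal = ⊥ := by
        have := Ideal.eq_bot_of_prime q.asIdeal
        exact this
      change Ideal.comap (algebraMap R p.asIdeal.ResidueField) q.asIdeal = p.asIdeal
      rw [hbot, ← RingHom.ker_eq_comap_bot, Ideal.ker_algebraMap_residueField]
    rw [hq]; exact hp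
  · intro h
    refine h ⟨⟨⊥, Ideal.isPrime_bot⟩, ?_⟩
    ext1
    change Ideal.comap (algebraMap R p.asIdeal.ResidueField) ⊥ = p.asIdeal
    rw [← RingHom.ker_eq_comap_bot, Ideal.ker_algebraMap_residueField]

end genLocus

end Fermat.Agent.S25.ATLAS.DIV.Spread
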