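import Mathlib
import Fermat.Agent.S25.ATLAS.DIV.Spread.SupportBC

/-!
# S25 library (helper8990): the basis locus of a family in a finite projective module

Mathlib-only (plus the support/base-change library of helper9288), general commutative algebra
for the "(Open)" step (iii) of the S25 route ("`B` is a basis of `B₁ ⧸ 𝔞₁`" is an open,
pointwise condition on `Spec R`, compatible with base change).

* `injective_of_surjective_of_rankAtStalk_eq`: a surjection between finite projective modules
  with the same local ranks is injective.
* `basisLocus v`: for `v : ι → P`, `P` finite projective, the set of primes where `v` generates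
  and the local rank of `P` is `#ι`.  `isOpen_basisLocus`.
* `isBasis_baseChange_iff`: `1 ⊗ v` is a basis of `A ⊗[R] P` iff `Spec A` lands in `basisLocus v`.
* `isBasis_iff_basisLocus_eq_univ`, `mem_basisLocus_iff` (fibre criterion at a prime).
-/

set_option autoImplicit false

open TensorProduct

namespace Fermat.Agent.S25.ATLAS.DIV.Spread


section Rank

variable {R : Type*} [CommRing R]
variable {M : Type*} [AddCommGroup M] [Module R M] [Module.Finite R M] [Module.Projective R M]
variable {P : Type*} [AddCommGroup P] [Module R P] [Module.Finite R P] [Module.Projective R P]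

/-- A surjection between finite projective modules with the same local ranks is injective. -/
theorem injective_of_surjective_of_rankAtStalk_eq (u : M →ₗ[R] P) (hu : Function.Surjective u)
    (hr : Module.rankAtStalk (R := R) M = Module.rankAtStalk P) : Function.Injective u := by
  obtain ⟨l, hl⟩ := u.exists_rightInverse_of_surjective (LinearMap.range_eq_top.mpr hu)
  have hex : Function.Exact (LinearMap.ker u).subtype u := LinearMap.exact_subtype_ker_map u
  obtain ⟨e, he₁, he₂⟩ := hex.splitSurjectiveEquiv (Submodule.injective_subtype _) ⟨l, hl⟩
  have hfin : Module.Finite R (LinearMap.ker u) :=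
    Module.Finite.of_surjective ((LinearMap.fst R _ _).comp e.toLinearMap)
      (Prod.fst_surjective.comp e.surjective)
  have hproj : Module.Projective R (LinearMap.ker u) :=
    Module.Projective.of_split (e.symm.toLinearMap.comp (LinearMap.inl R _ _))
      ((LinearMap.fst R _ _).comp e.toLinearMap) (by ext x; simp)
  have h1 := Module.rankAtStalk_eq_of_equiv (R := R) e
  rw [Module.rankAtStalk_prod] at h1
  have h0 : Module.rankAtStalk (R := R) (LinearMap.ker u) = 0 := by
    ext p
    have h1p := congrFun h1 p
    have hrp := congrFun hr p
    simp only [Pi.add_apply, Pi.zero_apply] at h1p ⊢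
    omega
  have hsub : Subsingleton (LinearMap.ker u) := Module.rankAtStalk_eq_zero_iff_subsingleton.mp h0
  rw [← LinearMap.ker_eq_bot]
  exact Submodule.eq_bot_of_subsingleton

end Rank

section Basis

variable {R : Type*} [CommRing R] {P : Type*} [AddCommGroup P] [Module R P]
  [Module.Finite R P] [Module.Projective R P] {ι : Type*} [Finite ι]

/-- The locus of primes at which the family `v` is a basis of the fibre of `P`:
`v` generates there and the local rank of `P` is the cardinality of the index type. -/
def basisLocus (v : ι → P) : Set (PrimeSpectrum R) :=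
  genLocus (R := R) v ∩ {p | Module.rankAtStalk P p = Nat.card ι}

theorem isOpen_basisLocus (v : ι → P) : IsOpen (basisLocus (R := R) v) := by
  haveI : Module.FinitePresentation R P := Module.finitePresentation_of_projective R P
  exact (isOpen_genLocus v).inter
    ((Module.isLocallyConstant_rankAtStalk (R := R) (M := P)).isOpen_fiber _)

omit [Module.Finite R P] [Module.Projective R P] in
private theorem rankAtStalk_finsupp (A : Type*) [CommRing A] [Nontrivial A] :
    Module.rankAtStalk (R := A) (ι →₀ A) = fun _ => Nat.card ι := by
  cases nonempty_fintype ι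
  rw [Module.rankAtStalk_eq_finrank_of_free]
  funext q
  simp [Nat.card_eq_fintype_card]

/-- Key step: a generating family of the right cardinality in a finite projective module of
constant rank is linearly independent. -/
theorem linearIndependent_of_span_eq_top_of_rankAtStalk {A : Type*} [CommRing A]
    {Q : Type*} [AddCommGroup Q] [Module A Q] [Module.Finite A Q] [Module.Projective A Q]
    (w : ι → Q) (hspan : Submodule.span A (Set.range w) = ⊤)
    (hrank : ∀ q : PrimeSpectrum A, Module.rankAtStalk Q q = Nat.card ι) :
    LinearIndependent A w := by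
  rcases subsingleton_or_nontrivial A with hA | hA
  · haveI : Subsingleton (ι →₀ A) := ⟨fun x y => by ext i; exact Subsingleton.elim _ _⟩
    exact fun x y _ => Subsingleton.elim x y
  · have hsurj : Function.Surjective (Finsupp.linearCombination A w) := by
      rw [← LinearMap.range_eq_top, Finsupp.range_linearCombination, hspan]
    refine injective_of_surjective_of_rankAtStalk_eq (Finsupp.linearCombination A w) hsurj ?_
    rw [rankAtStalk_finsupp]
    funext q
    exact (hrank q).symm

/-- `1 ⊗ v` is a basis of `A ⊗[R] P` iff `Spec A` lands in the basis locus of `v`. -/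
theorem isBasis_baseChange_iff (A : Type*) [CommRing A] [Algebra R A] (v : ι → P) :
    (LinearIndependent A (fun i => (1 : A) ⊗ₜ[R] v i) ∧
        Submodule.span A (Set.range fun i => (1 : A) ⊗ₜ[R] v i) = ⊤) ↔
      Set.range (PrimeSpectrum.comap (algebraMap R A)) ⊆ basisLocus (R := R) v := by
  constructor
  · rintro ⟨hli, hspan⟩
    have hgen := (span_baseChange_eq_top_iff A v).mp hspan
    rintro _ ⟨q, rfl⟩
    refine ⟨hgen ⟨q, rfl⟩, ?_⟩
    have hq : Module.rankAtStalk (A ⊗[R] P) q = Nat.card ι := by
      haveI : Nontrivial A := q.nontrivial
      let b : Module.Basis ι A (A ⊗[R] P) := Module.Basis.mk hli hspan.ge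
      haveI : Module.Free A (A ⊗[R] P) := Module.Free.of_basis b
      rw [Module.rankAtStalk_eq_finrank_of_free]
      exact Module.finrank_eq_nat_card_basis b
    rw [Module.rankAtStalk_baseChange] at hq
    exact hq
  · intro h
    have hspan : Submodule.span A (Set.range fun i => (1 : A) ⊗ₜ[R] v i) = ⊤ :=
      (span_baseChange_eq_top_iff A v).mpr (fun x hx => (h hx).1)
    refine ⟨linearIndependent_of_span_eq_top_of_rankAtStalk _ hspan fun q => ?_, hspan⟩
    rw [Module.rankAtStalk_baseChange]
    exact (h ⟨q, rfl⟩).2

/-- `v` is a basis of `P` iff every prime lies in the basis locus. -/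
theorem isBasis_iff_basisLocus_eq_univ (v : ι → P) :
    (LinearIndependent R v ∧ Submodule.span R (Set.range v) = ⊤) ↔
      basisLocus (R := R) v = Set.univ := by
  constructor
  · rintro ⟨hli, hspan⟩
    have hgen := (span_eq_top_iff_genLocus v).mp hspan
    rw [basisLocus, hgen, Set.univ_inter, Set.eq_univ_iff_forall]
    intro p
    haveI : Nontrivial R := p.nontrivial
    let b : Module.Basis ι R P := Module.Basis.mk hli hspan.ge
    haveI : Module.Free R P := Module.Free.of_basis b
    change Module.rankAtStalk P p = Nat.card ι
    rw [Module.rankAtStalk_eq_finrank_of_free]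
    exact Module.finrank_eq_nat_card_basis b
  · intro h
    have hgen : genLocus (R := R) v = Set.univ := by
      rw [Set.eq_univ_iff_forall] at h ⊢
      exact fun p => (h p).1
    have hspan := (span_eq_top_iff_genLocus v).mpr hgen
    refine ⟨linearIndependent_of_span_eq_top_of_rankAtStalk v hspan fun q => ?_, hspan⟩
    have : q ∈ basisLocus (R := R) v := by rw [h]; trivial
    exact this.2

/-- Fibre criterion: a prime is in the basis locus iff `1 ⊗ v` is a basis of the fibre
`κ(p) ⊗[R] P`. -/
theorem mem_basisLocus_iff (v : ι → P) (p : PrimeSpectrum R) :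
    p ∈ basisLocus (R := R) v ↔
      (LinearIndependent p.asIdeal.ResidueField
          (fun i => (1 : p.asIdeal.ResidueField) ⊗ₜ[R] v i) ∧
        Submodule.span p.asIdeal.ResidueField
          (Set.range fun i => (1 : p.asIdeal.ResidueField) ⊗ₜ[R] v i) = ⊤) := by
  rw [isBasis_baseChange_iff]
  have hq : ∀ q : PrimeSpectrum p.asIdeal.ResidueField,
      PrimeSpectrum.comap (algebraMap R p.asIdeal.ResidueField) q = p := by
    intro q
    ext1
    have hbot : q.asIdeal = ⊥ := Ideal.eq_bot_of_prime q.asIdeal
    change Ideal.comap (algebraMap R p.asIdeal.ResidueField) q.asIdeal = p.asIdeal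
    rw [hbot, ← RingHom.ker_eq_comap_bot, Ideal.ker_algebraMap_residueField]
  constructor
  · rintro hp _ ⟨q, rfl⟩
    rw [hq]; exact hp
  · intro h
    have := h ⟨⟨⊥, Ideal.isPrime_bot⟩, rfl⟩
    rwa [hq] at this

end Basis

end Fermat.Agent.S25.ATLAS.DIV.Spread
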