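/-
S25 / ATLAS / DIV-C (helper8990): Mathlib-only module theory for "fibrewise ⇒ global" (LG) and
"one field point ⇒ basic open neighbourhood" (SPREAD) arguments, over ANY commutative ring.

* finite modules: `subsingleton_of_forall_field`, `exists_spread_subsingleton`;
* maps of finite projective modules: `bijLocus`, `isOpen_bijLocus`, `bijective_baseChange_iff`,
  `bijective_of_forall_field`, `exists_spread_bijective`;
* two-term complexes `d : P → Q`: `surjective_baseChange_iff`, `surjective_of_forall_field`,
  `exists_spread_surjective`; for split surjective `d`: `ker (d.baseChange A) = A ⊗ ker d`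
  (`range_subtype_baseChange`, `injective_subtype_baseChange`, `bijective_domRestrict_iff`),
  `ker d` finite projective; LG/SPREAD for "`u` restricted to the kernel is bijective"
  (`bijective_ker_of_forall_field`, `exists_spread_bijective_ker`).
Sorry-free.
-/
import Mathlib
import Fermat.Agent.S25.ATLAS.DIV.Spread.BasisLocus

set_option autoImplicit false

open TensorProduct

namespace Fermat.Agent.S25.ATLAS.DIV.Spread

universe u v w

section Points

variable {R : Type u} [CommRing R]

/-- The point of `Spec R` under a field-valued point. -/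
def fieldPt (K : Type v) [Field K] [Algebra R K] : PrimeSpectrum R :=
  ⟨RingHom.ker (algebraMap R K), RingHom.ker_isPrime _⟩

theorem range_comap_field (K : Type v) [Field K] [Algebra R K] :
    Set.range (PrimeSpectrum.comap (algebraMap R K)) = {fieldPt (R := R) K} := by
  ext p
  simp only [Set.mem_range, Set.mem_singleton_iff]
  constructor
  · rintro ⟨q, rfl⟩
    apply PrimeSpectrum.ext
    rw [PrimeSpectrum.comap_asIdeal]
    have hq : q.asIdeal = ⊥ := by
      rcases Ideal.eq_bot_or_top q.asIdeal with h | h
      · exact h
      · exact absurd h q.isPrime.ne_top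
    rw [hq]
    rfl
  · rintro rfl
    refine ⟨⟨⊥, Ideal.isPrime_bot⟩, ?_⟩
    apply PrimeSpectrum.ext
    rw [PrimeSpectrum.comap_asIdeal]
    rfl

theorem mem_basicOpen_fieldPt (K : Type v) [Field K] [Algebra R K] (a : R) :
    fieldPt (R := R) K ∈ PrimeSpectrum.basicOpen a ↔ algebraMap R K a ≠ 0 := by
  rw [PrimeSpectrum.mem_basicOpen]
  exact Iff.rfl

theorem range_comap_subset_basicOpen (A : Type v) [CommRing A] [Algebra R A] (a : R)
    (ha : IsUnit (algebraMap R A a)) :
    Set.range (PrimeSpectrum.comap (algebraMap R A)) ⊆ (PrimeSpectrum.basicOpen a : Set _) := by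
  rintro _ ⟨q, rfl⟩
  change a ∉ (PrimeSpectrum.comap (algebraMap R A) q).asIdeal
  rw [PrimeSpectrum.comap_asIdeal, Ideal.mem_comap]
  exact fun h => q.isPrime.ne_top (Ideal.eq_top_of_isUnit_mem _ h ha)

/-- A point of an open subset of `Spec R` has a basic open neighbourhood inside it. -/
theorem exists_basicOpen_subset {U : Set (PrimeSpectrum R)} (hU : IsOpen U)
    (K : Type v) [Field K] [Algebra R K] (hK : fieldPt (R := R) K ∈ U) :
    ∃ a : R, algebraMap R K a ≠ 0 ∧ (PrimeSpectrum.basicOpen a : Set (PrimeSpectrum R)) ⊆ U := by
  obtain ⟨_, ⟨a, rfl⟩, hmem, hsub⟩ :=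
    PrimeSpectrum.isTopologicalBasis_basic_opens.exists_subset_of_mem_open hK hU
  exact ⟨a, (mem_basicOpen_fieldPt K a).1 hmem, hsub⟩

end Points

section Finite

variable {R : Type u} [CommRing R] (T : Type v) [AddCommGroup T] [Module R T] [Module.Finite R T]

theorem subsingleton_field_tensor_iff (K : Type w) [Field K] [Algebra R K] :
    Subsingleton (K ⊗[R] T) ↔ fieldPt (R := R) K ∉ Module.support R T := by
  rw [← nontrivial_field_tensor_iff (M := T) K (fieldPt (R := R) K) rfl, not_nontrivial_iff_subsingleton]

/-- (LG) A finite module whose fibre at some field point over every prime vanishes is zero. -/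
theorem subsingleton_of_forall_field
    (h : ∀ p : PrimeSpectrum R, ∃ (K : Type w) (_ : Field K) (_ : Algebra R K),
      fieldPt (R := R) K = p ∧ Subsingleton (K ⊗[R] T)) : Subsingleton T := by
  rw [← Module.support_eq_empty_iff (R := R), Set.eq_empty_iff_forall_notMem]
  intro p
  obtain ⟨K, _, _, rfl, hK⟩ := h p
  exact (subsingleton_field_tensor_iff T K).1 hK

/-- (SPREAD) If the fibre of a finite module at a field point vanishes, the module vanishes
after every base change inverting a suitable `a` not vanishing at the point. -/
theorem exists_spread_subsingleton (K : Type w) [Field K] [Algebra R K]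
    (h : Subsingleton (K ⊗[R] T)) :
    ∃ a : R, algebraMap R K a ≠ 0 ∧ ∀ (A : Type w) [CommRing A] [Algebra R A],
      IsUnit (algebraMap R A a) → Subsingleton (A ⊗[R] T) := by
  obtain ⟨a, ha, hsub⟩ := exists_basicOpen_subset
    (Module.isClosed_support (R := R) (M := T)).isOpen_compl K
    ((subsingleton_field_tensor_iff T K).1 h)
  refine ⟨a, ha, fun A _ _ hA => ?_⟩
  rw [subsingleton_baseChange_iff']
  exact (range_comap_subset_basicOpen A a hA).trans hsub

end Finite

section Bij

variable {R : Type u} [CommRing R]
variable {P : Type v} [AddCommGroup P] [Module R P]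
variable {P' : Type w} [AddCommGroup P'] [Module R P']

/-- Surjectivity after base change in terms of the cokernel. -/
theorem surjective_baseChange_iff (A : Type*) [CommRing A] [Algebra R A] (u : P →ₗ[R] P') :
    Function.Surjective (u.baseChange A) ↔ Subsingleton (A ⊗[R] (P' ⧸ LinearMap.range u)) := by
  have hex : Function.Exact (u.baseChange A) ((LinearMap.range u).mkQ.baseChange A) :=
    lTensor_exact A (LinearMap.exact_map_mkQ_range u) (Submodule.mkQ_surjective _)
  have hsurj : Function.Surjective ((LinearMap.range u).mkQ.baseChange A) :=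
    LinearMap.lTensor_surjective A (Submodule.mkQ_surjective _)
  constructor
  · intro hu
    refine ⟨fun x y => ?_⟩
    obtain ⟨x', rfl⟩ := hsurj x
    obtain ⟨y', rfl⟩ := hsurj y
    obtain ⟨x'', rfl⟩ := hu x'
    obtain ⟨y'', rfl⟩ := hu y'
    rw [hex.apply_apply_eq_zero, hex.apply_apply_eq_zero]
  · intro hs y
    exact (hex y).1 (Subsingleton.elim _ _)

variable [Module.Finite R P] [Module.Projective R P] [Module.Finite R P'] [Module.Projective R P']

/-- The locus of `Spec R` where a map of finite projective modules is an isomorphism. -/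
def bijLocus (u : P →ₗ[R] P') : Set (PrimeSpectrum R) :=
  (Module.support R (P' ⧸ LinearMap.range u))ᶜ ∩
    {p | Module.rankAtStalk P p = Module.rankAtStalk P' p}

theorem isOpen_bijLocus (u : P →ₗ[R] P') : IsOpen (bijLocus u) := by
  haveI : Module.FinitePresentation R P := Module.finitePresentation_of_projective R P
  haveI : Module.FinitePresentation R P' := Module.finitePresentation_of_projective R P'
  refine (Module.isClosed_support (R := R) (M := P' ⧸ LinearMap.range u)).isOpen_compl.inter ?_
  have h1 := Module.isLocallyConstant_rankAtStalk (R := R) (M := P)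
  have h2 := Module.isLocallyConstant_rankAtStalk (R := R) (M := P')
  have : {p : PrimeSpectrum R | Module.rankAtStalk P p = Module.rankAtStalk P' p} =
      ⋃ n : ℕ, (Module.rankAtStalk P ⁻¹' {n}) ∩ (Module.rankAtStalk P' ⁻¹' {n}) := by
    ext p
    simp only [Set.mem_ofPred_eq, Set.mem_iUnion, Set.mem_inter_iff, Set.mem_preimage,
      Set.mem_singleton_iff]
    constructor
    · intro h
      exact ⟨_, rfl, h.symm⟩
    · rintro ⟨n, h, h'⟩
      rw [h, h']
  rw [this]
  exact isOpen_iUnion fun n => (h1.isOpen_fiber n).inter (h2.isOpen_fiber n)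

/-- `A ⊗ u` is bijective iff `Spec A` lands in the bijectivity locus of `u`. -/
theorem bijective_baseChange_iff (A : Type*) [CommRing A] [Algebra R A] (u : P →ₗ[R] P') :
    Function.Bijective (u.baseChange A) ↔
      Set.range (PrimeSpectrum.comap (algebraMap R A)) ⊆ bijLocus u := by
  constructor
  · intro hu
    rintro _ ⟨q, rfl⟩
    refine ⟨?_, ?_⟩
    · have h1 := (surjective_baseChange_iff A u).1 hu.2
      rw [subsingleton_baseChange_iff'] at h1
      exact h1 ⟨q, rfl⟩
    · have e := Module.rankAtStalk_eq_of_equiv (R := A) (LinearEquiv.ofBijective _ hu)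
      have eq := congrFun e q
      rw [Module.rankAtStalk_baseChange, Module.rankAtStalk_baseChange] at eq
      exact eq
  · intro h
    have hsurj : Function.Surjective (u.baseChange A) := by
      rw [surjective_baseChange_iff, subsingleton_baseChange_iff']
      exact fun x hx => (h hx).1
    refine ⟨injective_of_surjective_of_rankAtStalk_eq _ hsurj ?_, hsurj⟩
    funext q
    rw [Module.rankAtStalk_baseChange, Module.rankAtStalk_baseChange]
    exact (h ⟨q, rfl⟩).2

theorem bijective_of_bijLocus_eq_univ (u : P →ₗ[R] P') (h : bijLocus u = Set.univ) :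
    Function.Bijective u := by
  have hsurj : Function.Surjective u := by
    have h1 : Module.support R (P' ⧸ LinearMap.range u) = ∅ := by
      rw [Set.eq_empty_iff_forall_notMem]
      intro p
      have hp : p ∈ bijLocus u := by rw [h]; trivial
      exact hp.1
    rw [Module.support_eq_empty_iff, Submodule.Quotient.subsingleton_iff] at h1
    exact LinearMap.range_eq_top.1 h1
  refine ⟨injective_of_surjective_of_rankAtStalk_eq u hsurj ?_, hsurj⟩
  funext p
  have hp : p ∈ bijLocus u := by rw [h]; trivial
  exact hp.2

/-- (LG) A map of finite projective modules which is bijective on some field-valued fibre over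
every prime is bijective. -/
theorem bijective_of_forall_field (u : P →ₗ[R] P')
    (h : ∀ p : PrimeSpectrum R, ∃ (K : Type u) (_ : Field K) (_ : Algebra R K),
      fieldPt (R := R) K = p ∧ Function.Bijective (u.baseChange K)) : Function.Bijective u := by
  apply bijective_of_bijLocus_eq_univ
  apply Set.eq_univ_of_forall
  intro p
  obtain ⟨K, _, _, rfl, hK⟩ := h p
  have := (bijective_baseChange_iff K u).1 hK
  rw [range_comap_field] at this
  exact this rfl

/-- (SPREAD) If a map of finite projective modules is bijective on the fibre at one field point,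
it is bijective after every base change inverting a suitable `a` not vanishing at the point. -/
theorem exists_spread_bijective (u : P →ₗ[R] P') (K : Type u) [Field K] [Algebra R K]
    (h : Function.Bijective (u.baseChange K)) :
    ∃ a : R, algebraMap R K a ≠ 0 ∧ ∀ (A : Type u) [CommRing A] [Algebra R A],
      IsUnit (algebraMap R A a) → Function.Bijective (u.baseChange A) := by
  have hmem : fieldPt (R := R) K ∈ bijLocus u := by
    have := (bijective_baseChange_iff K u).1 h
    rw [range_comap_field] at this
    exact this rfl
  obtain ⟨a, ha, hsub⟩ := exists_basicOpen_subset (isOpen_bijLocus u) K hmem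
  refine ⟨a, ha, fun A _ _ hA => ?_⟩
  rw [bijective_baseChange_iff]
  exact (range_comap_subset_basicOpen A a hA).trans hsub

end Bij

section Complex

variable {R : Type u} [CommRing R]
variable {P : Type v} [AddCommGroup P] [Module R P]
variable {Q : Type w} [AddCommGroup Q] [Module R Q]

/-- (LG) for surjectivity of a map with finite cokernel. -/
theorem surjective_of_forall_field (d : P →ₗ[R] Q) [Module.Finite R (Q ⧸ LinearMap.range d)]
    (h : ∀ p : PrimeSpectrum R, ∃ (K : Type u) (_ : Field K) (_ : Algebra R K),
      fieldPt (R := R) K = p ∧ Function.Surjective (d.baseChange K)) : Function.Surjective d := by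
  have : Subsingleton (Q ⧸ LinearMap.range d) := by
    apply subsingleton_of_forall_field (R := R) (Q ⧸ LinearMap.range d)
    intro p
    obtain ⟨K, i1, i2, hK, hs⟩ := h p
    exact ⟨K, i1, i2, hK, (surjective_baseChange_iff K d).1 hs⟩
  rw [Submodule.Quotient.subsingleton_iff] at this
  exact LinearMap.range_eq_top.1 this

/-- (SPREAD) for surjectivity of a map with finite cokernel. -/
theorem exists_spread_surjective (d : P →ₗ[R] Q) [Module.Finite R (Q ⧸ LinearMap.range d)]
    (K : Type u) [Field K] [Algebra R K] (h : Function.Surjective (d.baseChange K)) :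
    ∃ a : R, algebraMap R K a ≠ 0 ∧ ∀ (A : Type u) [CommRing A] [Algebra R A],
      IsUnit (algebraMap R A a) → Function.Surjective (d.baseChange A) := by
  obtain ⟨a, ha, hA⟩ := exists_spread_subsingleton (R := R) (Q ⧸ LinearMap.range d) K
    ((surjective_baseChange_iff K d).1 h)
  exact ⟨a, ha, fun A _ _ hu => (surjective_baseChange_iff A d).2 (hA A hu)⟩

variable (d : P →ₗ[R] Q) (σ : Q →ₗ[R] P) (hσ : d ∘ₗ σ = LinearMap.id)

/-- The projection of `P` onto `ker d` along a section `σ` of `d`. -/
def kerProj (d : P →ₗ[R] Q) (σ : Q →ₗ[R] P) (hσ : d ∘ₗ σ = LinearMap.id) :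
    P →ₗ[R] LinearMap.ker d :=
  (LinearMap.id - σ ∘ₗ d).codRestrict (LinearMap.ker d) (fun x => by
    rw [LinearMap.mem_ker, LinearMap.sub_apply, LinearMap.id_apply, map_sub, LinearMap.comp_apply]
    have := LinearMap.congr_fun hσ (d x)
    rw [LinearMap.comp_apply, LinearMap.id_apply] at this
    rw [this, sub_self])

theorem subtype_comp_kerProj :
    (LinearMap.ker d).subtype ∘ₗ kerProj d σ hσ = LinearMap.id - σ ∘ₗ d := by
  ext x
  rfl

theorem kerProj_comp_subtype :
    kerProj d σ hσ ∘ₗ (LinearMap.ker d).subtype = LinearMap.id := by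
  ext x
  have hx : d x.1 = 0 := x.2
  simp [kerProj, hx]

include hσ in
theorem projective_ker [Module.Projective R P] : Module.Projective R (LinearMap.ker d) :=
  Module.Projective.of_split (LinearMap.ker d).subtype (kerProj d σ hσ)
    (kerProj_comp_subtype d σ hσ)

include hσ in
theorem injective_subtype_baseChange (A : Type*) [CommRing A] [Algebra R A] :
    Function.Injective ((LinearMap.ker d).subtype.baseChange A) := by
  have h : (kerProj d σ hσ).baseChange A ∘ₗ (LinearMap.ker d).subtype.baseChange A =
      LinearMap.id := by
    rw [← LinearMap.baseChange_comp, kerProj_comp_subtype, LinearMap.baseChange_id]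
  intro x y hxy
  have := congrArg ((kerProj d σ hσ).baseChange A) hxy
  rw [← LinearMap.comp_apply, ← LinearMap.comp_apply, h] at this
  exact this

include hσ in
theorem range_subtype_baseChange (A : Type*) [CommRing A] [Algebra R A] :
    LinearMap.range ((LinearMap.ker d).subtype.baseChange A) = LinearMap.ker (d.baseChange A) := by
  apply le_antisymm
  · rintro _ ⟨x, rfl⟩
    rw [LinearMap.mem_ker, ← LinearMap.comp_apply, ← LinearMap.baseChange_comp]
    have : d ∘ₗ (LinearMap.ker d).subtype = 0 := by
      ext x
      exact x.2
    rw [this, LinearMap.baseChange_zero, LinearMap.zero_apply]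
  · intro x hx
    rw [LinearMap.mem_ker] at hx
    refine ⟨(kerProj d σ hσ).baseChange A x, ?_⟩
    rw [← LinearMap.comp_apply, ← LinearMap.baseChange_comp, subtype_comp_kerProj,
      LinearMap.baseChange_sub, LinearMap.baseChange_id, LinearMap.baseChange_comp,
      LinearMap.sub_apply, LinearMap.id_apply, LinearMap.comp_apply, hx, map_zero, sub_zero]

include hσ in
/-- Restricting `A ⊗ u` to the kernel of `A ⊗ d` is the base change of the restriction of `u` to
`ker d`, when `d` is split surjective. -/
theorem bijective_domRestrict_iff {P' : Type*} [AddCommGroup P'] [Module R P']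
    (u : P →ₗ[R] P') (A : Type*) [CommRing A] [Algebra R A] :
    Function.Bijective ((u.baseChange A).domRestrict (LinearMap.ker (d.baseChange A))) ↔
      Function.Bijective ((u ∘ₗ (LinearMap.ker d).subtype).baseChange A) := by
  have hinj := injective_subtype_baseChange d σ hσ A
  have hrange := range_subtype_baseChange d σ hσ A
  let e : A ⊗[R] LinearMap.ker d → LinearMap.ker (d.baseChange A) := fun x =>
    ⟨(LinearMap.ker d).subtype.baseChange A x, by rw [← hrange]; exact ⟨x, rfl⟩⟩
  have he : Function.Bijective e := by
    constructor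
    · intro x y hxy
      exact hinj (congrArg Subtype.val hxy)
    · rintro ⟨y, hy⟩
      rw [← hrange] at hy
      obtain ⟨x, rfl⟩ := hy
      exact ⟨x, rfl⟩
  have hcomp : ⇑((u ∘ₗ (LinearMap.ker d).subtype).baseChange A) =
      ⇑((u.baseChange A).domRestrict (LinearMap.ker (d.baseChange A))) ∘ e := by
    funext x
    rw [LinearMap.baseChange_comp]
    rfl
  rw [hcomp]
  constructor
  · intro h
    exact h.comp he
  · intro h
    exact (Function.Bijective.of_comp_iff _ he).1 h

end Complex

end Fermat.Agent.S25.ATLAS.DIV.Spread
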