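/-
S25 package ATLAS/DIV, leaf Spread, stage 2 (sub-leaf; statement fixed by `Spread/Plan.lean`).
DONE (helper8990), no sorry.
C1 spreads among rigid line bundles with `H¹ = 0`: then `H⁰(M)` is finite projective and
commutes with base change ((CB1), `Lib/Coh`); `ev_ε : H⁰(M) → R`, `t ↦ e t₁` (`e` the
rigidification) is a map of finite projective modules, bijective at the point, hence after
inverting some `a` (`Spread/Complex.lean`); `s := ev⁻¹(1)`.
-/
import Fermat.Agent.S25.ATLAS.DIV.Spread.EvH0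
import Fermat.Agent.S25.ATLAS.DIV.Spread.Complex

set_option autoImplicit false

universe u

namespace Fermat.Agent.S25.ATLAS.DIV.Spread

open scoped TensorProduct

open Fermat.Agent.S25 Fermat.Agent.S25.ATLAS GluedModule H2890 HC2928

variable {k : Type u} [Field k] (𝒞 : CurveData k) [IsAlgClosed k]

theorem spread_c1 : IsSpread (Fam.and (RigLB 𝒞) (PH1 𝒞)) (PC1 𝒞) := by
  intro R _ _ M hM κ _ _ _ φ₀ M₀ hBC₀ hP₀
  obtain ⟨⟨hLB, hrig⟩, h1⟩ := hM
  have h1 : Subsingleton M.H1 := h1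
  obtain ⟨e, he, hsurj⟩ := Lib.Rigid.exists_surjective_of_rigid M hrig
  haveI := Lib.Coh.h0_finite 𝒞 M hLB h1
  haveI := Lib.Coh.h0_projective 𝒞 M hLB h1
  -- the point
  letI algκ : Algebra R κ := (φ₀ : R →+* κ).toAlgebra
  obtain ⟨D₀⟩ := hBC₀
  obtain ⟨e₀, he₀, he₀j⟩ := exists_eps_map φ₀ D₀ e he
  have hsurj₀ : Function.Surjective e₀ := by
    intro c
    obtain ⟨n, hn⟩ := hsurj 1
    exact ⟨c • D₀.j₁ n, by rw [map_smul, he₀j, hn, map_one, smul_eq_mul, mul_one]⟩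
  obtain ⟨s₀, hs₀⟩ := hP₀
  have hb₀ : Function.Bijective (evH0 M₀ e₀) := bijective_ev_of_isC1 hs₀ e₀ he₀ hsurj₀
  have hb₀' : Function.Bijective ((evH0 M e).baseChange κ) :=
    (ev_baseChange 𝒞 φ₀ (fun _ => rfl) D₀ hLB h1 e e₀ he₀j).1 hb₀
  obtain ⟨a, ha, H⟩ := exists_spread_bijective (evH0 M e) κ hb₀'
  refine ⟨a, ha, ?_⟩
  intro R' _ _ φ M' hu hBC
  letI algR' : Algebra R R' := (φ : R →+* R').toAlgebra
  have hrig' : Rigid 𝒞 M' := rigid_of_isBC 𝒞 φ M M' hrig hBC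
  have h1' : Subsingleton M'.H1 := Lib.Coh.subsingleton_h1_of_isBC 𝒞 φ hBC h1
  obtain ⟨D⟩ := hBC
  obtain ⟨e', he', he'j⟩ := exists_eps_map φ D e he
  have hb : Function.Bijective ((evH0 M e).baseChange R') := H R' hu
  have hb' := (ev_baseChange 𝒞 φ (fun _ => rfl) D hLB h1 e e' he'j).2 hb
  exact isC1_of_bijective hrig' h1' e' he' hb'

end Fermat.Agent.S25.ATLAS.DIV.Spread
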