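/-
S25 package ATLAS/DIV, leaf Spread: the canonical section is unique up to a unit, and the zero
ideal does not depend on it (helper8990).  No sorry.
-/
import Fermat.Agent.S25.ATLAS.DIV.Spread.Defs

set_option autoImplicit false

universe u

namespace Fermat.Agent.S25.ATLAS.DIV.Spread

open scoped TensorProduct

open Fermat.Agent.S25 Fermat.Agent.S25.ATLAS GluedModule H2890 HC2928

variable {k : Type u} [Field k] {𝒞 : CurveData k} {R : Type u} [CommRing R] [Algebra k R]
  {M : GluedModule (𝒞.chart R)}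

/-- Two sections with C1 differ by a unit of the base. -/
theorem IsC1.exists_unit {s t : M.N₁ × M.N₂} (hs : IsC1 𝒞 M s) (ht : IsC1 𝒞 M t) :
    ∃ u : Rˣ, t = (u : R) • s := by
  obtain ⟨r, hr, -⟩ := hs.gen t ht.mem
  obtain ⟨r', hr', -⟩ := ht.gen s hs.mem
  have h1 : s = (r' * r) • s := by
    rw [mul_smul, ← hr]
    exact hr'
  have h2 : r' * r = 1 := by
    obtain ⟨c, -, hc⟩ := hs.gen s hs.mem
    rw [hc (r' * r) h1, hc 1 (one_smul R s).symm]
  exact ⟨⟨r, r', by rw [mul_comm]; exact h2, h2⟩, hr⟩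

/-- C1 is invariant under multiplying the section by a unit of the base. -/
theorem IsC1.smul_unit {s : M.N₁ × M.N₂} (hs : IsC1 𝒞 M s) (u : Rˣ) :
    IsC1 𝒞 M ((u : R) • s) := by
  refine ⟨M.H0.smul_mem _ hs.mem, hs.h1, ?_, ?_⟩
  · intro t ht
    obtain ⟨r, hr, hr'⟩ := hs.gen t ht
    refine ⟨r * ((u⁻¹ : Rˣ) : R), ?_, ?_⟩
    · show t = (r * ((u⁻¹ : Rˣ) : R)) • (u : R) • s
      rw [← mul_smul, mul_assoc, Units.inv_mul, mul_one]
      exact hr
    · intro c hc
      have hc' : t = (c * (u : R)) • s := by rw [mul_smul]; exact hc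
      have : c * (u : R) = r := hr' _ hc'
      rw [← this, mul_assoc, Units.mul_inv, mul_one]
  · have hspan : Submodule.span (𝒞.chart R).B₁ {((u : R) • s).1} =
        Submodule.span (𝒞.chart R).B₁ {s.1} := by
      have hu : IsUnit (algebraMap R (𝒞.chart R).B₁ (u : R)) := u.isUnit.map _
      have : ((u : R) • s).1 = algebraMap R (𝒞.chart R).B₁ (u : R) • s.1 := by
        rw [Prod.smul_fst, algebraMap_smul]
      rw [this]
      exact Submodule.span_singleton_smul_eq hu s.1
    rw [hspan]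
    exact hs.eps

/-- The first zero ideal does not change when the section is multiplied by a unit. -/
theorem zeroIdeal₁_smul_unit (s : M.N₁ × M.N₂) (u : Rˣ) :
    zeroIdeal₁ 𝒞 M ((u : R) • s) = zeroIdeal₁ 𝒞 M s := by
  have hu : IsUnit (algebraMap R (𝒞.chart R).B₁ (u : R)) := u.isUnit.map _
  have : ((u : R) • s).1 = algebraMap R (𝒞.chart R).B₁ (u : R) • s.1 := by
    rw [Prod.smul_fst, algebraMap_smul]
  unfold zeroIdeal₁
  rw [this]
  exact zeroIdeal_unit_smul hu s.1

/-- The first zero ideal of a section with C1 does not depend on the section. -/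
theorem zeroIdeal₁_eq_of_isC1 {s t : M.N₁ × M.N₂} (hs : IsC1 𝒞 M s) (ht : IsC1 𝒞 M t) :
    zeroIdeal₁ 𝒞 M t = zeroIdeal₁ 𝒞 M s := by
  obtain ⟨u, rfl⟩ := hs.exists_unit ht
  exact zeroIdeal₁_smul_unit s u

/-- `away` is invariant under multiplying the section by a unit of the base. -/
theorem away_smul_unit {s : M.N₁ × M.N₂} (u : Rˣ)
    (h : Submodule.span (𝒞.chart R).B₂ {s.2} ⊔
      (Ideal.span {(𝒞.chart R).g}) • (⊤ : Submodule (𝒞.chart R).B₂ M.N₂) = ⊤) :
    Submodule.span (𝒞.chart R).B₂ {((u : R) • s).2} ⊔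
      (Ideal.span {(𝒞.chart R).g}) • (⊤ : Submodule (𝒞.chart R).B₂ M.N₂) = ⊤ := by
  have hu : IsUnit (algebraMap R (𝒞.chart R).B₂ (u : R)) := u.isUnit.map _
  have : ((u : R) • s).2 = algebraMap R (𝒞.chart R).B₂ (u : R) • s.2 := by
    rw [Prod.smul_snd, algebraMap_smul]
  rw [this, Submodule.span_singleton_smul_eq hu s.2]
  exact h

/-- `IsCan` is invariant under multiplying the section by a unit of the base. -/
theorem isCan_smul_unit {s : M.N₁ × M.N₂} (hs : IsCan 𝒞 M s) (u : Rˣ) :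
    IsCan 𝒞 M ((u : R) • s) :=
  ((IsC1.of_isCan hs).smul_unit u).isCan (away_smul_unit u hs.away)

end Fermat.Agent.S25.ATLAS.DIV.Spread
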