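/-
S25 package ATLAS/DIV, leaf Spread: `ε`-semilinear forms, rigidity and the condition `eps`
(helper8990).  No sorry.

* `exists_eps_map`  : an `ε`-semilinear form `e` on `N₁` induces one on every base change,
                      `e' (j₁ n) = φ (e n)`;
* `isUnit_of_eps`   : `eps` for `s₁` + `e` surjective semilinear ⇒ `e s₁` is a unit;
* `eps_of_rigid`    : `Rigid N` + some semilinear form with `e₁ s₁` a unit ⇒ `eps` for `s₁`.
-/
import Fermat.Agent.S25.ATLAS.DIV.Spread.Defs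
import Fermat.Agent.S25.Lib.Rigid.Basic48

set_option autoImplicit false

universe u

namespace Fermat.Agent.S25.ATLAS.DIV.Spread

open scoped TensorProduct

open Fermat.Agent.S25 Fermat.Agent.S25.ATLAS GluedModule

variable {k : Type u} [Field k] {𝒞 : CurveData k} {R : Type u} [CommRing R] [Algebra k R]

/-- A semilinear form transported along a base change. -/
theorem exists_eps_map {R' : Type u} [CommRing R'] [Algebra k R'] (φ : R →ₐ[k] R')
    {N : GluedModule (𝒞.chart R)} {N' : GluedModule (𝒞.chart R')}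
    (D : BaseChangeData (𝒞.chartHom φ) N N') (e : N.N₁ →ₗ[R] R)
    (he : ∀ (b : (𝒞.chart R).B₁) (n : N.N₁), e (b • n) = 𝒞.epsR R b * e n) :
    ∃ e' : N'.N₁ →ₗ[R'] R',
      (∀ (b : (𝒞.chart R').B₁) (n : N'.N₁), e' (b • n) = 𝒞.epsR R' b * e' n) ∧
      ∀ n, e' (D.j₁ n) = φ (e n) := by
  letI algR' : Algebra (𝒞.chart R').B₁ R' := Lib.Rigid.epsAlgebra 𝒞 (R := R')
  let h₀ : N.N₁ →+ R' := (φ : R →+ R').comp e.toAddMonoidHom
  have h₀s : ∀ (b : (𝒞.chart R).B₁) (n : N.N₁), h₀ (b • n) = (𝒞.chartHom φ).ψ₁ b • h₀ n := by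
    intro b n
    change φ (e (b • n)) = 𝒞.epsR R' ((𝒞.chartHom φ).ψ₁ b) * φ (e n)
    rw [he, map_mul, Lib.Rigid.epsR_chartHom]
  obtain ⟨e'B, he'B, -⟩ := D.univ₁ R' h₀ h₀s
  have he'B' : ∀ n, e'B (D.j₁ n) = φ (e n) := he'B
  have he'smul : ∀ (b : (𝒞.chart R').B₁) (n : N'.N₁), e'B (b • n) = 𝒞.epsR R' b * e'B n :=
    fun b n => e'B.map_smul b n
  let e' : N'.N₁ →ₗ[R'] R' :=
    { toFun := e'B
      map_add' := e'B.map_add
      map_smul' := fun c n => by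
        have h1 : c • n = (algebraMap R' (𝒞.chart R').B₁ c) • n := (algebraMap_smul _ c n).symm
        change e'B (c • n) = c * e'B n
        rw [h1, he'smul, (𝒞.epsR R').commutes c]
        rfl }
  exact ⟨e', he'smul, he'B'⟩

variable {N : GluedModule (𝒞.chart R)}

/-- A semilinear form kills `ker ε • N₁`. -/
theorem eps_map_eq_zero (e : N.N₁ →ₗ[R] R)
    (he : ∀ (b : (𝒞.chart R).B₁) (n : N.N₁), e (b • n) = 𝒞.epsR R b * e n) {m : N.N₁}
    (hm : m ∈ (RingHom.ker (𝒞.epsR R : (𝒞.chart R).B₁ →+* R)) •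
      (⊤ : Submodule (𝒞.chart R).B₁ N.N₁)) : e m = 0 := by
  refine Submodule.smul_induction_on hm ?_ ?_
  · intro r hr n _
    rw [he]
    have : 𝒞.epsR R r = 0 := hr
    rw [this, zero_mul]
  · intro x y hx hy
    rw [map_add, hx, hy, add_zero]

/-- If `s₁` generates the `ε`-fibre, every surjective semilinear form is a unit on `s₁`. -/
theorem isUnit_of_eps (e : N.N₁ →ₗ[R] R)
    (he : ∀ (b : (𝒞.chart R).B₁) (n : N.N₁), e (b • n) = 𝒞.epsR R b * e n)
    (hsurj : Function.Surjective e) {s₁ : N.N₁}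
    (heps : Submodule.span (𝒞.chart R).B₁ {s₁} ⊔
      (RingHom.ker (𝒞.epsR R : (𝒞.chart R).B₁ →+* R)) •
        (⊤ : Submodule (𝒞.chart R).B₁ N.N₁) = ⊤) : IsUnit (e s₁) := by
  obtain ⟨n, hn⟩ := hsurj 1
  have hmem : n ∈ Submodule.span (𝒞.chart R).B₁ {s₁} ⊔
      (RingHom.ker (𝒞.epsR R : (𝒞.chart R).B₁ →+* R)) •
        (⊤ : Submodule (𝒞.chart R).B₁ N.N₁) := by
    rw [heps]; trivial
  obtain ⟨y, hy, z, hz, rfl⟩ := Submodule.mem_sup.1 hmem
  obtain ⟨b, rfl⟩ := Submodule.mem_span_singleton.1 hy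
  rw [map_add, he, eps_map_eq_zero e he hz, add_zero] at hn
  exact IsUnit.of_mul_eq_one _ (by rw [mul_comm]; exact hn)

/-- For a rigid module, a section on which some semilinear form is a unit generates the
`ε`-fibre. -/
theorem eps_of_rigid (hr : Rigid 𝒞 N) (e₁ : N.N₁ →ₗ[R] R)
    (he₁ : ∀ (b : (𝒞.chart R).B₁) (n : N.N₁), e₁ (b • n) = 𝒞.epsR R b * e₁ n) {s₁ : N.N₁}
    (hu : IsUnit (e₁ s₁)) :
    Submodule.span (𝒞.chart R).B₁ {s₁} ⊔
      (RingHom.ker (𝒞.epsR R : (𝒞.chart R).B₁ →+* R)) •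
        (⊤ : Submodule (𝒞.chart R).B₁ N.N₁) = ⊤ := by
  obtain ⟨e, he, huniv⟩ := hr
  set p : Submodule (𝒞.chart R).B₁ N.N₁ :=
    (RingHom.ker (𝒞.epsR R : (𝒞.chart R).B₁ →+* R)) • (⊤ : Submodule (𝒞.chart R).B₁ N.N₁)
    with hp
  -- the quotient map, `R`-linear and `ε`-semilinear
  let π : N.N₁ →ₗ[R] (N.N₁ ⧸ p) :=
    { toFun := fun n => Submodule.Quotient.mk n
      map_add' := fun x y => rfl
      map_smul' := fun c n => rfl }
  have hπ : ∀ (b : (𝒞.chart R).B₁) (n : N.N₁), π (b • n) = 𝒞.epsR R b • π n := by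
    intro b n
    change (Submodule.Quotient.mk (b • n) : N.N₁ ⧸ p) = Submodule.Quotient.mk (𝒞.epsR R b • n)
    rw [Submodule.Quotient.eq]
    have h1 : b • n - 𝒞.epsR R b • n = (b - algebraMap R (𝒞.chart R).B₁ (𝒞.epsR R b)) • n := by
      rw [sub_smul, algebraMap_smul]
    rw [h1]
    refine Submodule.smul_mem_smul ?_ trivial
    change 𝒞.epsR R (b - algebraMap R (𝒞.chart R).B₁ (𝒞.epsR R b)) = 0
    rw [map_sub, (𝒞.epsR R).commutes]
    exact sub_self _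
  obtain ⟨π', hπ', -⟩ := huniv (N.N₁ ⧸ p) π hπ
  obtain ⟨c, hc, -⟩ := huniv R e₁ (fun b n => by rw [he₁, smul_eq_mul])
  -- `e s₁` is a unit
  have h2 : e₁ s₁ = e s₁ * c 1 := by
    rw [← hc s₁]
    conv_lhs => rw [← mul_one (e s₁), ← smul_eq_mul, map_smul, smul_eq_mul]
  have hv : IsUnit (e s₁) := by
    rw [h2] at hu
    exact isUnit_of_mul_isUnit_left hu
  obtain ⟨v, hv⟩ := hv
  rw [eq_top_iff]
  intro n _
  set r : R := e n * ((v⁻¹ : Rˣ) : R) with hr
  have h3 : π n = π (r • s₁) := by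
    rw [map_smul, ← hπ' s₁, ← map_smul, ← hπ' n, smul_eq_mul, hr, ← hv, mul_assoc,
      Units.inv_mul, mul_one]
  have h4 : n - r • s₁ ∈ p := (Submodule.Quotient.eq p).1 h3
  have h5 : n = r • s₁ + (n - r • s₁) := by abel
  rw [h5]
  refine Submodule.add_mem_sup ?_ h4
  rw [← algebraMap_smul (𝒞.chart R).B₁ r s₁]
  exact Submodule.smul_mem _ _ (Submodule.mem_span_singleton_self s₁)

end Fermat.Agent.S25.ATLAS.DIV.Spread
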