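/-
S25 package ATLAS/DIV, leaf Spread: the evaluation `ev : H⁰(N) → R`, `t ↦ e t₁` for an
`ε`-semilinear form `e`, and condition C1 (helper8990; after helper4068's `C1`).  No sorry.

* `bijective_ev_of_isC1` : `IsC1 N s` + `e` surjective ⇒ `ev` bijective;
* `isC1_of_bijective`    : `Rigid N`, `H¹(N) = 0`, `ev` bijective ⇒ `IsC1 N (ev⁻¹ 1)`;
* `ev_baseChange`        : (CB1) `ev' ≅ R' ⊗ ev` for every base change of a line bundle with
                           `H¹ = 0`.
-/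
import Fermat.Agent.S25.ATLAS.DIV.Spread.Rig
import Fermat.Agent.S25.ATLAS.DIV.Spread.CanUnique
import Fermat.Agent.S25.Lib.Coh.Rel6070

set_option autoImplicit false

universe u

namespace Fermat.Agent.S25.ATLAS.DIV.Spread

open scoped TensorProduct

open Fermat.Agent.S25 Fermat.Agent.S25.ATLAS GluedModule

section ev

variable {R : Type u} [CommRing R] {𝔹 : TwoChart R} (N : GluedModule 𝔹)

/-- Evaluation of global sections through a linear form on the first chart. -/
def evH0 (e : N.N₁ →ₗ[R] R) : N.H0 →ₗ[R] R :=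
  e ∘ₗ LinearMap.fst R N.N₁ N.N₂ ∘ₗ N.H0.subtype

@[simp] theorem evH0_apply (e : N.N₁ →ₗ[R] R) (s : N.H0) :
    evH0 N e s = e (s : N.N₁ × N.N₂).1 := rfl

end ev

variable {k : Type u} [Field k] {𝒞 : CurveData k} {R : Type u} [CommRing R] [Algebra k R]
  {N : GluedModule (𝒞.chart R)}

/-- C1 for `(N, s)` makes the evaluation bijective. -/
theorem bijective_ev_of_isC1 {s : N.N₁ × N.N₂} (hs : IsC1 𝒞 N s) (e : N.N₁ →ₗ[R] R)
    (he : ∀ (b : (𝒞.chart R).B₁) (n : N.N₁), e (b • n) = 𝒞.epsR R b * e n)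
    (hsurj : Function.Surjective e) : Function.Bijective (evH0 N e) := by
  obtain ⟨v, hv⟩ := isUnit_of_eps e he hsurj hs.eps
  constructor
  · rw [injective_iff_map_eq_zero]
    intro t ht
    obtain ⟨r, hr, -⟩ := hs.gen t t.2
    rw [evH0_apply, hr, Prod.smul_fst, map_smul, smul_eq_mul, ← hv] at ht
    have hr0 : r = 0 := by
      have := congrArg (· * ((v⁻¹ : Rˣ) : R)) ht
      simpa [mul_assoc] using this
    apply Subtype.ext
    rw [hr, hr0, zero_smul]
    rfl
  · intro r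
    refine ⟨⟨(r * ((v⁻¹ : Rˣ) : R)) • s, N.H0.smul_mem _ hs.mem⟩, ?_⟩
    rw [evH0_apply]
    change e ((r * ((v⁻¹ : Rˣ) : R)) • s).1 = r
    rw [Prod.smul_fst, map_smul, smul_eq_mul, ← hv, mul_assoc, Units.inv_mul, mul_one]

/-- A rigid module with `H¹ = 0` and bijective evaluation has a section with C1 (normalised by
`e s₁ = 1`). -/
theorem isC1_of_bijective' (hr : Rigid 𝒞 N) (h1 : Subsingleton N.H1) (e : N.N₁ →ₗ[R] R)
    (he : ∀ (b : (𝒞.chart R).B₁) (n : N.N₁), e (b • n) = 𝒞.epsR R b * e n)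
    (hbij : Function.Bijective (evH0 N e)) : ∃ s : N.N₁ × N.N₂, IsC1 𝒞 N s ∧ e s.1 = 1 := by
  obtain ⟨s, hs⟩ := hbij.2 1
  have hs' : e (s : N.N₁ × N.N₂).1 = 1 := hs
  refine ⟨(s : N.N₁ × N.N₂), ⟨s.2, h1, ?_, ?_⟩, hs'⟩
  · intro t ht
    refine ⟨e t.1, ?_, ?_⟩
    · have h2 : (⟨t, ht⟩ : N.H0) = e t.1 • s := by
        apply hbij.1
        rw [map_smul, hs, smul_eq_mul, mul_one]
        rfl
      exact congrArg Subtype.val h2
    · intro r hr'
      have hr'' : t = r • (s : N.N₁ × N.N₂) := hr'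
      rw [hr'', Prod.smul_fst, map_smul, hs', smul_eq_mul, mul_one]
  · exact eps_of_rigid hr e he (by rw [hs']; exact isUnit_one)

/-- A rigid module with `H¹ = 0` and bijective evaluation has a section with C1. -/
theorem isC1_of_bijective (hr : Rigid 𝒞 N) (h1 : Subsingleton N.H1) (e : N.N₁ →ₗ[R] R)
    (he : ∀ (b : (𝒞.chart R).B₁) (n : N.N₁), e (b • n) = 𝒞.epsR R b * e n)
    (hbij : Function.Bijective (evH0 N e)) : ∃ s : N.N₁ × N.N₂, IsC1 𝒞 N s := by
  obtain ⟨s, hs, -⟩ := isC1_of_bijective' hr h1 e he hbij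
  exact ⟨s, hs⟩

/-- If `N` has a section with C1, every global section on which a semilinear form is a unit
has C1. -/
theorem IsC1.of_isUnit_ev {s t : N.N₁ × N.N₂} (hs : IsC1 𝒞 N s) (ht : t ∈ N.H0)
    (e : N.N₁ →ₗ[R] R) (hu : IsUnit (e t.1)) : IsC1 𝒞 N t := by
  obtain ⟨r, hr, -⟩ := hs.gen t ht
  have h2 : e t.1 = r * e s.1 := by rw [hr, Prod.smul_fst, map_smul, smul_eq_mul]
  rw [h2] at hu
  obtain ⟨v, hv⟩ := isUnit_of_mul_isUnit_left hu
  rw [hr, ← hv]
  exact hs.smul_unit v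

variable (𝒞) in
/-- (CB1) for the evaluation: for a line bundle with `H¹ = 0`, the evaluation of a base change
is the base change of the evaluation. -/
theorem ev_baseChange {R' : Type u} [CommRing R'] [Algebra k R'] [Algebra R R']
    [IsAlgClosed k]
    (φ : R →ₐ[k] R') (hφ : ∀ r, φ r = algebraMap R R' r) {N' : GluedModule (𝒞.chart R')}
    (D : BaseChangeData (𝒞.chartHom φ) N N') (hL : N.IsLineBundle) (h1 : Subsingleton N.H1)
    (e : N.N₁ →ₗ[R] R) (e' : N'.N₁ →ₗ[R'] R') (hee' : ∀ n, e' (D.j₁ n) = φ (e n)) :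
    Function.Bijective (evH0 N' e') ↔ Function.Bijective ((evH0 N e).baseChange R') := by
  obtain ⟨e₀, he₀⟩ := Lib.Coh.exists_h0_equiv 𝒞 φ hφ D hL h1
  have key : ∀ x : R' ⊗[R] N.H0, evH0 N' e' (e₀ x) =
      TensorProduct.AlgebraTensorModule.rid R R' R' ((evH0 N e).baseChange R' x) := by
    intro x
    induction x using TensorProduct.induction_on with
    | zero => simp
    | tmul c s =>
      rw [evH0_apply, he₀, Prod.smul_fst, map_smul, hee', smul_eq_mul,
        LinearMap.baseChange_tmul, TensorProduct.AlgebraTensorModule.rid_tmul, evH0_apply, hφ,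
        Algebra.smul_def, mul_comm]
    | add x y hx hy => rw [map_add, map_add, hx, hy, map_add, map_add]
  have key' : (evH0 N' e' : N'.H0 → R') ∘ (e₀ : R' ⊗[R] N.H0 → N'.H0) =
      (TensorProduct.AlgebraTensorModule.rid R R' R' : R' ⊗[R] R → R') ∘
        ((evH0 N e).baseChange R' : R' ⊗[R] N.H0 → R' ⊗[R] R) := funext key
  rw [← Function.Bijective.of_comp_iff _ e₀.bijective, key',
    Function.Bijective.of_comp_iff' (TensorProduct.AlgebraTensorModule.rid R R' R').bijective]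

/-- **C1 is stable under base change**, with the image section (rigid line bundles). -/
theorem IsC1.baseChange [IsAlgClosed k] {R' : Type u} [CommRing R'] [Algebra k R']
    (φ : R →ₐ[k] R') {N' : GluedModule (𝒞.chart R')}
    (D : BaseChangeData (𝒞.chartHom φ) N N') (hL : N.IsLineBundle) (hr : Rigid 𝒞 N)
    {s : N.N₁ × N.N₂} (hs : IsC1 𝒞 N s) : IsC1 𝒞 N' (D.j₁ s.1, D.j₂ s.2) := by
  letI algR' : Algebra R R' := (φ : R →+* R').toAlgebra
  obtain ⟨e, he, hsurj⟩ := Lib.Rigid.exists_surjective_of_rigid N hr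
  have hb : Function.Bijective (evH0 N e) := bijective_ev_of_isC1 hs e he hsurj
  obtain ⟨e', he', he'j⟩ := exists_eps_map φ D e he
  have hbc : Function.Bijective ((evH0 N e).baseChange R') :=
    (LinearEquiv.baseChange R R' N.H0 R (LinearEquiv.ofBijective (evH0 N e) hb)).bijective
  have hb' : Function.Bijective (evH0 N' e') :=
    (ev_baseChange 𝒞 φ (fun _ => rfl) D hL hs.h1 e e' he'j).2 hbc
  have hr' : Rigid 𝒞 N' := Lib.Rigid.rigid_of_baseChangeData φ D hr
  have h1' : Subsingleton N'.H1 := Lib.Coh.subsingleton_h1_of_isBC 𝒞 φ ⟨D⟩ hs.h1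
  obtain ⟨s'', hs'', -⟩ := isC1_of_bijective' hr' h1' e' he' hb'
  have hmem : (D.j₁ s.1, D.j₂ s.2) ∈ N'.H0 := by
    have h0 := (GluedModule.mem_H0 N s).1 hs.mem
    rw [GluedModule.mem_H0]
    change N'.ι₁ (D.j₁ s.1) = N'.ι₂ (D.j₂ s.2)
    rw [← D.comm₁, ← D.comm₂, h0]
  refine hs''.of_isUnit_ev hmem e' ?_
  change IsUnit (e' (D.j₁ s.1))
  rw [he'j]
  exact (isUnit_of_eps e he hsurj hs.eps).map φ

end Fermat.Agent.S25.ATLAS.DIV.Spread
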