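/-
S25 package ATLAS/DIV, leaf Spread, stage 3 (sub-leaf; statement fixed by `Spread/Plan.lean`).
DONE (helper8990), no sorry.
C2 (`away`) spreads among rigid line bundles with a C1-section `s`: C1 is stable under base
change with section `j s` (`IsC1.baseChange`); at the point `j₀ s` is a unit multiple of the
given canonical section; `M₂ ⧸ (B₂ s₂ + g M₂)` is a finite `R`-module commuting with base
change (helper5390's `C2.spread`, copied to `Spread/H5390/`).
-/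
import Fermat.Agent.S25.ATLAS.DIV.Spread.EvH0
import Fermat.Agent.S25.ATLAS.DIV.Spread.H5390.C2

set_option autoImplicit false

universe u

namespace Fermat.Agent.S25.ATLAS.DIV.Spread

open scoped TensorProduct

open Fermat.Agent.S25 Fermat.Agent.S25.ATLAS GluedModule H2890 HC2928

variable {k : Type u} [Field k] (𝒞 : CurveData k) [IsAlgClosed k]

theorem spread_can : IsSpread (Fam.and (RigLB 𝒞) (PC1 𝒞)) (PCan 𝒞) := by
  intro R _ _ M hM κ _ _ _ φ₀ M₀ hBC₀ hP₀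
  obtain ⟨⟨hLB, hrig⟩, s, hs⟩ := hM
  obtain ⟨s₀, hs₀⟩ := hP₀
  obtain ⟨D₀⟩ := hBC₀
  -- at the point the image section is a unit multiple of `s₀`
  have hC1₀ : IsC1 𝒞 M₀ (D₀.j₁ s.1, D₀.j₂ s.2) := IsC1.baseChange φ₀ D₀ hLB hrig hs
  obtain ⟨u, hu⟩ := (IsC1.of_isCan hs₀).exists_unit hC1₀
  have haway₀ : H5390.C2 M₀ (H5390.mapH0 D₀ ⟨s, hs.mem⟩) := by
    have h := away_smul_unit u hs₀.away
    rw [← hu] at h
    exact h
  have hfin : Module.Finite (𝒞.chart R).B₂ M.N₂ := by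
    haveI := hLB.inv₂
    infer_instance
  obtain ⟨a, ha, H⟩ := H5390.C2.spread 𝒞 M hfin ⟨s, hs.mem⟩ φ₀ D₀ haway₀
  refine ⟨a, ha, fun R' _ _ φ M' hua hBC => ?_⟩
  obtain ⟨D⟩ := hBC
  exact ⟨(D.j₁ s.1, D.j₂ s.2), (IsC1.baseChange φ D hLB hrig hs).isCan (H R' φ M' D hua)⟩

end Fermat.Agent.S25.ATLAS.DIV.Spread
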