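/-
S25 package ATLAS/DIV, leaf Spread, stage 4 (sub-leaf; statement fixed by `Spread/Plan.lean`).
C3 (`free`) spreads among rigid line bundles with a canonical section `s`: `IsCan` is stable
under base change with section `j s`; (Flat) `B₁ ⧸ zeroIdeal₁ s` is finite projective over `R`
and commutes with base change (`zeroIdeal_j₁`); a family which is a basis at the point is a
basis after inverting some `a`.

Proof (helper9191): assembly of
* `DIV/BCfwd/Can.lean` (helper7651): `isCan_of_baseChangeData` (C1 + C2 base-change);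
* `H2930/DivBC.lean` (helper2930): `zeroIdeal_j₁` (zero ideals commute with base change);
* `DIV/H2868/DivPoint.lean` (helper2868): `chart_flat` ((Flat) for `𝒞.chart R`);
* `DIV/H4190/Framed.lean` (helper4190): `Framed.spread` (a frame at a point spreads);
* `Lib/Rigid/Basic48.lean` (helper48): `exists_surjective_of_rigid`.
Auxiliary lemmas live in the namespace `Fermat.Agent.S25.ATLAS.DIV.Spread.S4`.
-/
import Fermat.Agent.S25.ATLAS.DIV.Spread.Defs
import Fermat.Agent.S25.ATLAS.DIV.BCfwd.Can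
import Fermat.Agent.S25.ATLAS.H2930.DivBC
import Fermat.Agent.S25.ATLAS.DIV.H2868.DivPoint
import Fermat.Agent.S25.ATLAS.DIV.H4190.Framed
import Fermat.Agent.S25.Lib.Rigid.Basic48

set_option autoImplicit false

universe u

namespace Fermat.Agent.S25.ATLAS.DIV.Spread

open scoped TensorProduct

open Fermat.Agent.S25 Fermat.Agent.S25.ATLAS GluedModule H2890 HC2928

namespace S4

variable {k : Type u} [Field k] {𝒞 : CurveData k}

/-- If `s₁` generates the `ε`-fibre, every surjective `ε`-semilinear map takes a unit value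
at `s₁`. -/
theorem isUnit_eval_of_eps {R : Type u} [CommRing R] [Algebra k R]
    {M : GluedModule (𝒞.chart R)} (e : M.N₁ →ₗ[R] R)
    (he : ∀ (b : (𝒞.chart R).B₁) (n : M.N₁), e (b • n) = 𝒞.epsR R b * e n)
    (hsurj : Function.Surjective e) (s₁ : M.N₁)
    (heps : Submodule.span (𝒞.chart R).B₁ {s₁} ⊔
      (RingHom.ker (𝒞.epsR R : (𝒞.chart R).B₁ →+* R)) •
        (⊤ : Submodule (𝒞.chart R).B₁ M.N₁) = ⊤) : IsUnit (e s₁) := by
  obtain ⟨n, hn⟩ := hsurj 1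
  have hmem : n ∈ Submodule.span (𝒞.chart R).B₁ {s₁} ⊔
      (RingHom.ker (𝒞.epsR R : (𝒞.chart R).B₁ →+* R)) •
        (⊤ : Submodule (𝒞.chart R).B₁ M.N₁) := by
    rw [heps]; exact Submodule.mem_top
  obtain ⟨x, hx, y, hy, rfl⟩ := Submodule.mem_sup.mp hmem
  obtain ⟨c, rfl⟩ := Submodule.mem_span_singleton.mp hx
  have hy0 : e y = 0 := by
    refine Submodule.smul_induction_on hy (fun a ha m _ => ?_) (fun x y hx hy => ?_)
    · rw [he]
      have ha' : 𝒞.epsR R a = 0 := ha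
      rw [ha', zero_mul]
    · rw [map_add, hx, hy, add_zero]
  rw [map_add, hy0, add_zero, he] at hn
  exact IsUnit.of_mul_eq_one _ (by rw [mul_comm]; exact hn)

/-- The zero ideal of a free generator of `H⁰` does not depend on the generator. -/
theorem zeroIdeal₁_eq_of_gen {R : Type u} [CommRing R] [Algebra k R]
    (M : GluedModule (𝒞.chart R)) (s s' : M.N₁ × M.N₂) (hs : IsCan 𝒞 M s)
    (hs' : IsCan 𝒞 M s') : zeroIdeal₁ 𝒞 M s = zeroIdeal₁ 𝒞 M s' := by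
  obtain ⟨r, hr, -⟩ := hs.gen s' hs'.mem
  obtain ⟨r', hr', -⟩ := hs'.gen s hs.mem
  have hone : r * r' = 1 := by
    obtain ⟨r₀, -, huniq⟩ := hs'.gen s' hs'.mem
    have h1 : r * r' = r₀ := huniq _ (by
      change s' = (r * r') • s'
      rw [mul_smul, ← hr', ← hr])
    have h2 : (1 : R) = r₀ := huniq _ (by
      change s' = (1 : R) • s'
      rw [one_smul])
    rw [h1, ← h2]
  have e1 : s'.1 = (algebraMap R (𝒞.chart R).B₁ r) • s.1 := by
    rw [hr, Prod.smul_fst, algebraMap_smul]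
  have hu : IsUnit (algebraMap R (𝒞.chart R).B₁ r) :=
    (IsUnit.of_mul_eq_one r' hone).map _
  unfold zeroIdeal₁
  rw [e1]
  exact (zeroIdeal_unit_smul hu s.1).symm

/-- The two formulations of "the classes of `1 ⊗ b j` form a basis of the quotient". -/
theorem framed_iff_isFreeOn {A : Type u} [CommRing A] [Algebra k A] {g : ℕ} (b : Fin g → A)
    {R : Type u} [CommRing R] [Algebra k R] (I : Ideal (R ⊗[k] A)) :
    H4190.Framed b R I ↔ IsFreeOn b I := by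
  rw [isFreeOn_iff]
  unfold H4190.Framed H4190.frame
  rw [H4190.bijective_linearCombination_iff_basis]
  constructor
  · rintro ⟨h1, h2⟩
    exact ⟨h1, h2.ge⟩
  · rintro ⟨h1, h2⟩
    exact ⟨h1, top_le_iff.mp h2⟩

end S4

variable {k : Type u} [Field k] (𝒞 : CurveData k) [IsAlgClosed k]

theorem spread_free {g : ℕ} (b : Fin g → 𝒞.A₁) :
    IsSpread (Fam.and (RigLB 𝒞) (PCan 𝒞)) (PDiv 𝒞 b 1) := by
  intro R _ _ M hM κ _ _ _ φ₀ M₀ hBC₀ hP₀
  obtain ⟨⟨hLB, hrig⟩, s, hs⟩ := hM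
  obtain ⟨s₀, hs₀⟩ := hP₀
  obtain ⟨D₀⟩ := hBC₀
  have := hLB.inv₁
  -- the section at the point
  have hcan₀ : IsCan 𝒞 M₀ (D₀.j₁ s.1, D₀.j₂ s.2) := BCfwd.isCan_of_baseChangeData hLB hs D₀
  have hz₀ : zeroIdeal₁ 𝒞 M₀ (D₀.j₁ s.1, D₀.j₂ s.2) =
      (zeroIdeal₁ 𝒞 M s).map (Algebra.TensorProduct.map φ₀ (AlgHom.id k 𝒞.A₁)) :=
    H2930.zeroIdeal_j₁ D₀ s.1
  have hfree₀ : IsFreeOn b
      ((zeroIdeal₁ 𝒞 M s).map (Algebra.TensorProduct.map φ₀ (AlgHom.id k 𝒞.A₁))) := by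
    rw [← hz₀, S4.zeroIdeal₁_eq_of_gen M₀ _ s₀ hcan₀ hs₀.can]
    exact hs₀.free
  -- (Flat)
  obtain ⟨e, he, hsurj⟩ := Lib.Rigid.exists_surjective_of_rigid M hrig
  have hu : IsUnit (e s.1) := S4.isUnit_eval_of_eps e he hsurj s.1 hs.eps
  obtain ⟨hfin, hproj, -⟩ := H2868.chart_flat 𝒞 M hLB ⟨s, hs.mem⟩ e he hu hs.away
  have hfin' : Module.Finite R ((R ⊗[k] 𝒞.A₁) ⧸ zeroIdeal₁ 𝒞 M s) := hfin
  have hproj' : Module.Projective R ((R ⊗[k] 𝒞.A₁) ⧸ zeroIdeal₁ 𝒞 M s) := hproj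
  -- spreading the frame
  obtain ⟨a, ha, hspread⟩ := H4190.Framed.spread (b := b) (I := zeroIdeal₁ 𝒞 M s) hfin' hproj'
    κ φ₀ ((S4.framed_iff_isFreeOn b _).2 hfree₀)
  refine ⟨a, ha, fun R' _ _ φ M' hua hBC => ?_⟩
  obtain ⟨D⟩ := hBC
  have hcan : IsCan 𝒞 M' (D.j₁ s.1, D.j₂ s.2) := BCfwd.isCan_of_baseChangeData hLB hs D
  have hz : zeroIdeal₁ 𝒞 M' (D.j₁ s.1, D.j₂ s.2) =
      (zeroIdeal₁ 𝒞 M s).map (Algebra.TensorProduct.map φ (AlgHom.id k 𝒞.A₁)) :=
    H2930.zeroIdeal_j₁ D s.1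
  refine ⟨(D.j₁ s.1, D.j₂ s.2), inDivChart_one hcan ?_⟩
  rw [hz]
  exact (S4.framed_iff_isFreeOn b _).1 (hspread R' φ hua)

end Fermat.Agent.S25.ATLAS.DIV.Spread
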