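/-
S25 package ATLAS/DIV, leaf Spread, stage 5 (sub-leaf; statement fixed by `Spread/Plan.lean`).
DONE (helper8990), no sorry of its own; uses the frozen leaf BCfwd (for the chart `(b, 1)`).
C4 (`unit`) spreads among rigid line bundles in the chart `(b, 1)`: `a := x_s(h)`; by the leaf
BCfwd (for the chart `(b, 1)`) the point is natural, so `x_{s'}(h) = φ (x_s h)`; at the
geometric point the canonical section is unique up to a unit, which does not change the zero
ideal.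
-/
import Fermat.Agent.S25.ATLAS.DIV.Spread.CanUnique
import Fermat.Agent.S25.ATLAS.DIV.BCfwd

set_option autoImplicit false

universe u

namespace Fermat.Agent.S25.ATLAS.DIV.Spread

open scoped TensorProduct

open Fermat.Agent.S25 Fermat.Agent.S25.ATLAS GluedModule H2890 HC2928

variable {k : Type u} [Field k] (𝒞 : CurveData k)

/-- The point of the Hilbert chart only depends on the module (not on the canonical section,
nor on `h`). -/
theorem point_eq_of_inDivChart {g : ℕ} {b : Fin g → 𝒞.A₁} {h h' : HilbChart k 𝒞.A₁ b}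
    {R : Type u} [CommRing R] [Algebra k R] {M : GluedModule (𝒞.chart R)}
    {s t : M.N₁ × M.N₂} (hs : InDivChart 𝒞 b h M s) (ht : InDivChart 𝒞 b h' M t) :
    ht.point = hs.point := by
  have hz : zeroIdeal₁ 𝒞 M t = zeroIdeal₁ 𝒞 M s :=
    zeroIdeal₁_eq_of_isC1 (IsC1.of_isCan hs.can) (IsC1.of_isCan ht.can)
  unfold InDivChart.point
  congr 1
  exact Subtype.ext hz

variable [IsAlgClosed k]

theorem spread_unit {g : ℕ} (b : Fin g → 𝒞.A₁) (h : HilbChart k 𝒞.A₁ b) :
    IsSpread (Fam.and (RigLB 𝒞) (PDiv 𝒞 b 1)) (PDiv 𝒞 b h) := by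
  intro R _ _ M hM κ _ _ _ φ₀ M₀ hBC₀ hP₀
  obtain ⟨⟨hLB, -⟩, s, hs⟩ := hM
  obtain ⟨s₀, hs₀⟩ := hP₀
  refine ⟨InDivChart.point 𝒞 hs h, ?_, ?_⟩
  · obtain ⟨t₀, ht₀, hpt⟩ := exists_inDivChart_of_isBC 𝒞 M hLB s hs φ₀ M₀ hBC₀
    have h1 : ht₀.point = hs₀.point := point_eq_of_inDivChart 𝒞 hs₀ ht₀
    have h2 : φ₀ (InDivChart.point 𝒞 hs h) = InDivChart.point 𝒞 hs₀ h := by
      rw [← h1, hpt]
      rfl
    rw [h2]
    exact hs₀.unit.ne_zero
  · intro R' _ _ φ M' hu hBC
    obtain ⟨s', hs', hpt⟩ := exists_inDivChart_of_isBC 𝒞 M hLB s hs φ M' hBC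
    refine ⟨s', hs'.can, hs'.free, ?_⟩
    have h2 : InDivChart.point 𝒞 hs' h = φ (InDivChart.point 𝒞 hs h) := by
      rw [hpt]
      rfl
    have h3 : IsUnit (InDivChart.point 𝒞 hs' h) := by rw [h2]; exact hu
    exact h3

end Fermat.Agent.S25.ATLAS.DIV.Spread
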