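/-
S25 package ATLAS/DIV, leaf Spread: PLAN (helper8990, deputy of the leaf).
The leaf `spread_inDivChart` is DERIVED here (no sorry of its own) from five stage sub-leaves
`Spread/S1.lean … S5.lean` (one statement each) by the staged calculus `Spread/Staged.lean`:

  S1 `spread_h1`   : IsSpread RigLB                 PH1          (H¹ = 0)
  S2 `spread_c1`   : IsSpread (RigLB ∧ PH1)         PC1          (ev_ε bijective, section)
  S3 `spread_can`  : IsSpread (RigLB ∧ PC1)         PCan         (away)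
  S4 `spread_free` : IsSpread (RigLB ∧ PCan)        (PDiv b 1)   (free)
  S5 `spread_unit` : IsSpread (RigLB ∧ PDiv b 1)    (PDiv b h)   (unit)
-/
import Fermat.Agent.S25.ATLAS.DIV.Spread.S1
import Fermat.Agent.S25.ATLAS.DIV.Spread.S2
import Fermat.Agent.S25.ATLAS.DIV.Spread.S3
import Fermat.Agent.S25.ATLAS.DIV.Spread.S4
import Fermat.Agent.S25.ATLAS.DIV.Spread.S5

set_option autoImplicit false

universe u

namespace Fermat.Agent.S25.ATLAS.DIV.Spread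

open scoped TensorProduct

open Fermat.Agent.S25 Fermat.Agent.S25.ATLAS GluedModule H2890 HC2928

variable {k : Type u} [Field k] (𝒞 : CurveData k) [IsAlgClosed k]

/-- The chart condition spreads among rigid line bundles. -/
theorem isSpread_pDiv {g : ℕ} (b : Fin g → 𝒞.A₁) (h : HilbChart k 𝒞.A₁ b) :
    IsSpread (RigLB 𝒞) (PDiv 𝒞 b h) := by
  have h1 : IsSpread (RigLB 𝒞) (PH1 𝒞) := spread_h1 𝒞
  have h2 : IsSpread (RigLB 𝒞) (PC1 𝒞) :=
    IsSpread.trans isBCStable_rigLB h1 (spread_c1 𝒞)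
      (fun R _ _ M hM => PH1.of_pC1 R M hM)
  have h3 : IsSpread (RigLB 𝒞) (PCan 𝒞) :=
    IsSpread.trans isBCStable_rigLB h2 (spread_can 𝒞)
      (fun R _ _ M hM => PC1.of_pCan R M hM)
  have h4 : IsSpread (RigLB 𝒞) (PDiv 𝒞 b 1) :=
    IsSpread.trans isBCStable_rigLB h3 (spread_free 𝒞 b)
      (fun R _ _ M hM => PCan.of_pDiv b 1 R M hM)
  have h5 : IsSpread (RigLB 𝒞) (PDiv 𝒞 b h) :=
    IsSpread.trans isBCStable_rigLB h4 (spread_unit 𝒞 b h)
      (fun R _ _ M hM => PDiv.one_of_pDiv b h R M hM)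
  intro R _ _ M hM κ _ _ _ φ₀ M₀ hBC₀ hP₀
  exact h5 M hM κ φ₀ M₀ hBC₀ hP₀

/-- The leaf, in the exact shape of `ATLAS/DIV/Spread.lean`. -/
theorem spread_main {g : ℕ} (b : Fin g → 𝒞.A₁) (h : HilbChart k 𝒞.A₁ b)
    {R : Type u} [CommRing R] [Algebra k R] (M : GluedModule (𝒞.chart R))
    (hM : M.IsLineBundle) (hr : Rigid 𝒞 M)
    (κ : Type u) [Field κ] [IsAlgClosed κ] [Algebra k κ] (φ₀ : R →ₐ[k] κ)
    (M₀ : GluedModule (𝒞.chart κ)) (hM₀ : IsBC (𝒞.chartHom φ₀) M M₀)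
    (s₀ : M₀.N₁ × M₀.N₂) (hs₀ : InDivChart 𝒞 b h M₀ s₀) :
    ∃ a : R, φ₀ a ≠ 0 ∧ ∀ (R' : Type u) [CommRing R'] [Algebra k R'] (φ : R →ₐ[k] R')
      (M' : GluedModule (𝒞.chart R')), IsUnit (φ a) → IsBC (𝒞.chartHom φ) M M' →
        ∃ s' : M'.N₁ × M'.N₂, InDivChart 𝒞 b h M' s' :=
  isSpread_pDiv 𝒞 b h M ⟨hM, hr⟩ κ φ₀ M₀ hM₀ ⟨s₀, hs₀⟩

end Fermat.Agent.S25.ATLAS.DIV.Spread
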